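import Mathlib
import Fermat.Agent.H22.CharK
import Fermat.Agent.H22.Faithful

/-!
# Integral eigenclasses with values in a discrete valuation ring
-/

set_option autoImplicit false
set_option linter.style.haveILetI false

noncomputable section

namespace Fermat.Agent.RR

open CongruenceSubgroup ModularCurve Fermat.Agent.H22

section Lift

variable {G O B : Type*} [AddGroup G] [AddGroup.FG G] [AddCommGroup O]
  [Module.IsTorsionFree ℤ O] [AddCommGroup B]

/-- Lifting homomorphisms along `ℤ → B`. -/
theorem exists_int_lift (lam : G →+ O) (i : ℤ →+ B) (φ : O →+ B)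
    (h : ∀ g, ∃ k : ℤ, φ (lam g) = i k) :
    ∃ ψ : G →+ ℤ, (∀ g, i (ψ g) = φ (lam g)) ∧ ∀ g, lam g = 0 → ψ g = 0 := by
  let R : AddSubgroup O := lam.range
  have hfg : Module.Finite ℤ R := by
    have h1 : AddGroup.FG R := by
      have : Function.Surjective lam.rangeRestrict := lam.rangeRestrict_surjective
      exact AddGroup.fg_of_surjective this
    exact Module.Finite.iff_addGroup_fg.mpr h1
  have htf : Module.IsTorsionFree ℤ R := by
    have : Function.Injective (R.subtype.toIntLinearMap) := R.subtype_injective
    exact this.moduleIsTorsionFree _ (fun c x => by simp)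
  have hfree : Module.Free ℤ R := inferInstance
  have hproj : Module.Projective ℤ R := inferInstance
  let f : ℤ →ₗ[ℤ] i.range := i.rangeRestrict.toIntLinearMap
  have hf : Function.Surjective f := i.rangeRestrict_surjective
  have hmem : ∀ x : R, φ x ∈ i.range := by
    rintro ⟨_, g, rfl⟩
    obtain ⟨k, hk⟩ := h g
    exact ⟨k, hk.symm⟩
  let g : R →ₗ[ℤ] i.range :=
    ((φ.comp R.subtype).codRestrict i.range hmem).toIntLinearMap
  obtain ⟨s, hs⟩ := Module.projective_lifting_property f g hf
  refine ⟨s.toAddMonoidHom.comp lam.rangeRestrict, fun x => ?_, fun x hx => ?_⟩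
  · have h1 := LinearMap.congr_fun hs (lam.rangeRestrict x)
    exact congrArg Subtype.val h1
  · have h1 : lam.rangeRestrict x = 0 := Subtype.ext hx
    rw [AddMonoidHom.comp_apply, h1, map_zero]

end Lift

section Eigen

variable {N : ℕ} [NeZero N] {S : Set ℕ} {O : Type*} [CommRing O] [IsDomain O] [CharZero O]

/-- **Integral eigenclass** attached to a homomorphism from the Hecke algebra to a domain of
characteristic zero. -/
theorem exists_eigen_integral (π : CuspForm.heckeAlgebra N 2 S →+* O) :
    ∃ lam : Additive (Gamma0 N) →+ O, lam ≠ 0 ∧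
      lam ∈ Period.parabolicHoms O (Gamma0 N) O ∧
      (∀ t : HeckeAlg, CuspForm.heckeEvalForms N 2 t = 0 → heckeAct O N O t lam = 0) ∧
      (∀ (x : CuspForm.heckeAlgebra N 2 S) (t : HeckeAlg),
        (CuspForm.heckeEvalForms N 2 t : Module.End ℂ (CuspForm (Gamma0 N) 2)) = x →
        heckeAct O N O t lam = π x • lam) := by
  classical
  let F := FractionRing O
  let K := AlgebraicClosure F
  have hOF : Function.Injective (algebraMap O F) := IsFractionRing.injective O F
  haveI : CharZero F := charZero_of_injective_algebraMap hOF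
  haveI : CharZero K := charZero_of_injective_algebraMap (algebraMap F K).injective
  let χ : CuspForm.heckeAlgebra N 2 S →+* K := ((algebraMap F K).comp (algebraMap O F)).comp π
  obtain ⟨v, hv, hpar, hann, heig⟩ := exists_eigenvector (N := N) S χ
  obtain ⟨γ₀, hγ₀⟩ : ∃ γ, v γ ≠ 0 := by
    by_contra hcon
    push Not at hcon
    exact hv (AddMonoidHom.ext hcon)
  obtain ⟨f, hf⟩ : ∃ f : Module.Dual F K, f (v γ₀) ≠ 0 := by
    by_contra hcon
    push Not at hcon
    exact hγ₀ ((Module.forall_dual_apply_eq_zero_iff F (v γ₀)).mp hcon)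
  let fa : K →+ F := f.toAddMonoidHom
  let v' : Additive (Gamma0 N) →+ F := fa.comp v
  have hv'app : ∀ γ, v' γ = f (v γ) := fun _ => rfl
  -- clearing denominators
  obtain ⟨s, hs⟩ := (Group.fg_def.mp (inferInstance : Group.FG (Gamma0 N)) :
    (⊤ : Subgroup (Gamma0 N)).FG)
  obtain ⟨d, hd⟩ := IsLocalization.exist_integer_multiples_of_finset (nonZeroDivisors O)
    (s.image (fun g => v' (Additive.ofMul g)))
  have hd0 : (d : O) ≠ 0 := nonZeroDivisors.ne_zero d.2
  have hint : ∀ γ : Additive (Gamma0 N), (algebraMap O F d) * v' γ ∈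
      (algebraMap O F).range := by
    let v'' : Additive (Gamma0 N) →+ F :=
      (AddMonoidHom.mulLeft (algebraMap O F d)).comp v'
    have h1 : (⊤ : Subgroup (Gamma0 N)) ≤
        (v''.toMultiplicativeRight).range.comap v''.toMultiplicativeRight := by
      intro g _
      exact ⟨g, rfl⟩
    let R : AddSubgroup F := (algebraMap O F).range.toAddSubgroup
    have h2 : ∀ g : Gamma0 N, v'' (Additive.ofMul g) ∈ R := by
      intro g
      have hg : g ∈ Subgroup.closure (s : Set (Gamma0 N)) := by rw [hs]; trivial
      induction hg using Subgroup.closure_induction with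
      | mem x hx =>
        obtain ⟨y, hy⟩ := hd (v' (Additive.ofMul x))
          (Finset.mem_image.mpr ⟨x, hx, rfl⟩)
        refine ⟨y, ?_⟩
        rw [hy]
        change (d : O) • v' (Additive.ofMul x) = algebraMap O F d * v' (Additive.ofMul x)
        rw [Algebra.smul_def]
      | one => rw [ofMul_one, map_zero]; exact R.zero_mem
      | mul x y _ _ hx hy => rw [ofMul_mul, map_add]; exact R.add_mem hx hy
      | inv x _ hx => rw [ofMul_inv, map_neg]; exact R.neg_mem hx
    intro γ
    exact h2 γ.toMul
  choose lf hlf using hint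
  let lam : Additive (Gamma0 N) →+ O :=
    { toFun := lf
      map_zero' := hOF (by rw [hlf, map_zero, mul_zero, map_zero])
      map_add' := fun x y => hOF (by rw [hlf, map_add, map_add, hlf, hlf, mul_add]) }
  have hlam : ∀ γ, algebraMap O F (lam γ) = algebraMap O F d * v' γ := hlf
  let ia : O →+ F := (algebraMap O F).toAddMonoidHom
  have hia : ia.comp lam = algebraMap O F d • v' := AddMonoidHom.ext fun γ => hlam γ
  have hact : ∀ t : HeckeAlg, ia.comp (heckeAct O N O t lam) =
      algebraMap O F d • fa.comp (heckeAct K N K t v) := by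
    intro t
    rw [← heckeAct_map (R := O) (R' := F), hia, map_smul, heckeAct_map (R := K) (R' := F)]
  have hext : ∀ {a b : Additive (Gamma0 N) →+ O}, ia.comp a = ia.comp b → a = b := by
    intro a b h
    exact AddMonoidHom.ext fun γ => hOF (DFunLike.congr_fun h γ)
  refine ⟨lam, fun h0 => ?_, fun γ hγ => ?_, fun t ht => ?_, fun x t ht => ?_⟩
  · have h1 := hlam γ₀
    rw [h0, AddMonoidHom.zero_apply, map_zero, hv'app] at h1
    rcases mul_eq_zero.mp h1.symm with h2 | h2
    · exact hd0 (hOF (by rw [h2, map_zero]))
    · exact hf h2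
  · apply hOF
    rw [hlam, hv'app, hpar γ hγ, map_zero, mul_zero, map_zero]
  · apply hext
    rw [hact, hann t ht, AddMonoidHom.comp_zero, smul_zero, AddMonoidHom.comp_zero]
  · apply hext
    rw [hact, heig x t ht]
    refine AddMonoidHom.ext fun γ => ?_
    change algebraMap O F d * f (algebraMap F K (algebraMap O F (π x)) * v γ) =
      algebraMap O F (π x * lam γ)
    have e : algebraMap F K (algebraMap O F (π x)) * v γ = (algebraMap O F (π x)) • v γ :=
      (Algebra.smul_def _ _).symm
    rw [e, map_smul, smul_eq_mul, map_mul (algebraMap O F), hlam, hv'app]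
    ring

end Eigen

end Fermat.Agent.RR
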