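import Mathlib
import Fermat.Agent.Descent.Input2
import Fermat.Agent.RR.Eigen

/-!
# Torsion points of `J₀(N)` of large order annihilated by a congruence ideal
-/

set_option autoImplicit false
set_option linter.style.haveILetI false
set_option maxSynthPendingDepth 3

noncomputable section

namespace Fermat.Agent.RR

open AlgebraicCurve CongruenceSubgroup ModularCurve Fermat.Agent.H22 Fermat.Agent.H26
  Fermat.Agent.H01 Fermat.Agent.H05

section Circle

/-- `k ↦ k / n` -/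
def divHom (n : ℕ) : ℤ →+ AddCircle (1 : ℚ) where
  toFun k := (((k : ℚ) / n : ℚ) : AddCircle (1 : ℚ))
  map_zero' := by simp
  map_add' a b := by
    push_cast
    rw [add_div, AddCircle.coe_add]

theorem divHom_apply (n : ℕ) (k : ℤ) :
    divHom n k = (((k : ℚ) / n : ℚ) : AddCircle (1 : ℚ)) := rfl

theorem divHom_eq_zero_iff {n : ℕ} (hn : n ≠ 0) (k : ℤ) : divHom n k = 0 ↔ (n : ℤ) ∣ k := by
  have hn' : (n : ℚ) ≠ 0 := by exact_mod_cast hn
  rw [divHom_apply, AddCircle.coe_eq_zero_iff]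
  constructor
  · rintro ⟨j, hj⟩
    refine ⟨j, ?_⟩
    rw [zsmul_one, eq_div_iff hn'] at hj
    have : (j * n : ℤ) = k := by exact_mod_cast hj
    rw [← this, mul_comm]
  · rintro ⟨j, rfl⟩
    refine ⟨j, ?_⟩
    rw [zsmul_one]
    push_cast
    field_simp

theorem exists_divHom_eq {n : ℕ} (hn : n ≠ 0) (x : AddCircle (1 : ℚ)) (hx : n • x = 0) :
    ∃ k : ℤ, x = divHom n k := by
  have hn' : (n : ℚ) ≠ 0 := by exact_mod_cast hn
  induction x using QuotientAddGroup.induction_on with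
  | H r =>
    have h1 : (((n : ℚ) * r : ℚ) : AddCircle (1 : ℚ)) = 0 := by
      rw [← nsmul_eq_mul, AddCircle.coe_nsmul]
      exact hx
    rw [AddCircle.coe_eq_zero_iff] at h1
    obtain ⟨k, hk⟩ := h1
    refine ⟨k, ?_⟩
    rw [divHom_apply]
    rw [zsmul_one] at hk
    rw [hk, mul_div_cancel_left₀ _ hn']

end Circle

section Element

variable {N : ℕ} [NeZero N] {S : Set ℕ} {O : Type*} [CommRing O] [IsDomain O] [CharZero O]
  [IsDiscreteValuationRing O] [Algebra (AlgebraicClosure ℚ) ℂ]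

theorem intertwine_kappa {m : ℕ} [NeZero m] (t : HeckeAlg) (w : Tor N m) :
    kappa N m (torAct N m t w) = heckeAct ℤ N (Additive ℂˣ) t (kappa N m w) :=
  intertwine_heckeAct (torAct N m) (kappa N m) (fun ℓ w ↦ by
    rw [torAct_heckeGen, kappa_heckeTor]) t w

set_option maxHeartbeats 1000000 in
/-- **Torsion points of large order annihilated by a congruence ideal.** -/
theorem exists_element {p : ℕ} (hp : p.Prime) (hpO : (p : O) ∈ IsLocalRing.maximalIdeal O)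
    (π : CuspForm.heckeAlgebra N 2 S →+* O) :
    ∃ c : ℕ, ∀ m : ℕ, c < m → ∀ [NeZero (p ^ m)], ∃ w : Tor N (p ^ m),
      (∀ s : HeckeAlg, CuspForm.heckeEvalForms N 2 s = 0 → torAct N (p ^ m) s w = 0) ∧
      (∀ (x : CuspForm.heckeAlgebra N 2 S) (t : HeckeAlg),
        (CuspForm.heckeEvalForms N 2 t : Module.End ℂ (CuspForm (Gamma0 N) 2)) = x →
        (p : O) ^ m ∣ π x → torAct N (p ^ m) t w = 0) ∧
      p ^ (m - 1 - c) • w ≠ 0 := by
  obtain ⟨lam, hlam, hpar, hann, heig⟩ := exists_eigen_integral (N := N) π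
  obtain ⟨γ₀, hγ₀⟩ : ∃ γ, lam γ ≠ 0 := by
    by_contra hcon
    push Not at hcon
    exact hlam (AddMonoidHom.ext hcon)
  have hpu : ¬ IsUnit (p : O) := fun h ↦ by
    rw [IsLocalRing.mem_maximalIdeal] at hpO
    exact hpO h
  obtain ⟨c, hc⟩ := FiniteMultiplicity.of_not_isUnit hpu hγ₀
  have hp0 : (p : O) ≠ 0 := by exact_mod_cast hp.ne_zero
  refine ⟨c, fun m hm _ ↦ ?_⟩
  have hpm : p ^ m ≠ 0 := pow_ne_zero _ hp.ne_zero
  let I : Ideal O := Ideal.span {(p : O) ^ m}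
  let y : O := (p : O) ^ (m - 1 - c) * lam γ₀
  have hy : Ideal.Quotient.mk I y ≠ 0 := by
    intro h0
    rw [Ideal.Quotient.eq_zero_iff_mem, Ideal.mem_span_singleton] at h0
    obtain ⟨z, hz⟩ := h0
    apply hc
    refine ⟨z, ?_⟩
    apply mul_left_cancel₀ (pow_ne_zero (m - 1 - c) hp0)
    rw [← mul_assoc, ← pow_add, show m - 1 - c + (c + 1) = m by omega]
    exact hz
  obtain ⟨χ, hχ⟩ := CharacterModule.exists_character_apply_ne_zero_of_ne_zero hy
  let φ : O →+ AddCircle (1 : ℚ) :=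
    (χ : (O ⧸ I) →+ AddCircle (1 : ℚ)).comp (Ideal.Quotient.mk I).toAddMonoidHom
  have hφ : ∀ z, φ ((p : O) ^ m * z) = 0 := by
    intro z
    have h1 : Ideal.Quotient.mk I ((p : O) ^ m * z) = 0 := by
      rw [Ideal.Quotient.eq_zero_iff_mem, Ideal.mem_span_singleton]
      exact dvd_mul_right _ _
    change χ (Ideal.Quotient.mk I ((p : O) ^ m * z)) = 0
    rw [h1, map_zero]
  obtain ⟨ψ, hψ, hψ0⟩ := exists_int_lift lam (divHom (p ^ m)) φ (fun g ↦ by
    refine exists_divHom_eq hpm _ ?_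
    rw [← map_nsmul, nsmul_eq_mul]
    push_cast
    exact hφ _)
  have hψpar : ψ ∈ Period.parabolicHoms ℤ (Gamma0 N) ℤ := fun γ hγ ↦ hψ0 _ (hpar γ hγ)
  have hcomp : (divHom (p ^ m)).comp ψ = φ.comp lam := AddMonoidHom.ext hψ
  let ζ : ℂˣ := (Complex.isPrimitiveRoot_exp (p ^ m) hpm).isUnit hpm |>.unit
  have hζ : IsPrimitiveRoot ζ (p ^ m) := by
    have := Complex.isPrimitiveRoot_exp (p ^ m) hpm
    exact IsPrimitiveRoot.coe_units_iff.mp this
  obtain ⟨w, hw⟩ := exists_kappa_eq (surjC N hpm) hζ hψpar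
  -- criterion
  have hcrit : ∀ t : HeckeAlg, φ.comp (heckeAct O N O t lam) = 0 → torAct N (p ^ m) t w = 0 := by
    intro t ht
    apply kappa_injective
    rw [intertwine_kappa, hw, heckeAct_map (R := ℤ) (R' := ℤ), map_zero]
    have h1 : (divHom (p ^ m)).comp (heckeAct ℤ N ℤ t ψ) = 0 := by
      rw [← heckeAct_map (R := ℤ) (R' := ℤ), hcomp, heckeAct_map (R := O) (R' := ℤ), ht]
    refine AddMonoidHom.ext fun γ ↦ ?_
    have h2 : divHom (p ^ m) (heckeAct ℤ N ℤ t ψ γ) = 0 := DFunLike.congr_fun h1 γ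
    rw [divHom_eq_zero_iff hpm] at h2
    change Additive.ofMul (ζ ^ (heckeAct ℤ N ℤ t ψ γ)) = 0
    rw [(hζ.zpow_eq_one_iff_dvd _).mpr h2]
    rfl
  refine ⟨w, fun s hs ↦ hcrit s ?_, fun x t ht hx ↦ hcrit t ?_, fun h0 ↦ ?_⟩
  · rw [hann s hs, AddMonoidHom.comp_zero]
  · rw [heig x t ht]
    obtain ⟨z, hz⟩ := hx
    refine AddMonoidHom.ext fun γ ↦ ?_
    change φ (π x * lam γ) = 0
    rw [hz, mul_assoc]
    exact hφ _
  · have h1 := congrArg (kappa N (p ^ m)) h0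
    rw [map_nsmul, hw, map_zero] at h1
    have h2 := DFunLike.congr_fun h1 γ₀
    change p ^ (m - 1 - c) • Additive.ofMul (ζ ^ (ψ γ₀)) = 0 at h2
    rw [← ofMul_pow, ← zpow_natCast, ← zpow_mul] at h2
    have h3 : ζ ^ (ψ γ₀ * ((p ^ (m - 1 - c) : ℕ) : ℤ)) = 1 := Additive.ofMul.injective h2
    rw [hζ.zpow_eq_one_iff_dvd, ← divHom_eq_zero_iff hpm, mul_comm, ← smul_eq_mul, map_zsmul,
      hψ, natCast_zsmul, ← map_nsmul, nsmul_eq_mul] at h3
    push_cast at h3
    exact hχ h3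

end Element

end Fermat.Agent.RR
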