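import Mathlib
import Fermat.Agent.TW.Local1
import Fermat.Agent.H05_Frob

/-!
# The inertia argument for unipotent actions
-/

set_option autoImplicit false
set_option linter.style.haveILetI false

noncomputable section

namespace Fermat.Agent.RR

local notation "Qb" => AlgebraicClosure ℚ
local notation "Γℚ" => AlgebraicClosure ℚ ≃ₐ[ℚ] AlgebraicClosure ℚ

variable {J : Type*} [AddCommGroup J] [DistribMulAction Γℚ J]

/-- If `(σ - 1)² = 0` for all `σ` in the inertia group, on the Galois module generated by `w`, and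
the fixed points of inertia in `Pr` are killed by `C`, then `C² w = 0`. -/
theorem unipotent_descent {A : ValuationSubring Qb} {q p : ℕ} (hq : q.Prime) (hp : p.Prime)
    (hpq : p ≠ q) (hA : A.LiesOverPrime q) (m : ℕ)
    (hfix : ∃ E : IntermediateField ℚ Qb, FiniteDimensional ℚ E ∧
      ∀ σ : Γℚ, (∀ a ∈ E, σ a = a) → ∀ x : J, p ^ m • x = 0 → σ • x = x)
    (hfin : Finite {x : J // p ^ m • x = 0}) (Pr : AddSubgroup J)
    (hPr : ∀ (σ : Γℚ), ∀ x ∈ Pr, σ • x ∈ Pr) (C : ℕ)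
    (hR : ∀ x : J, p ^ m • x = 0 → (∀ σ ∈ A.inertiaSubgroupIn ℚ, σ • x = x) → x ∈ Pr → C • x = 0)
    (w : J) (hw : p ^ m • w = 0) (hwPr : w ∈ Pr)
    (hsq : ∀ h : Γℚ, ∀ σ ∈ A.inertiaSubgroupIn ℚ,
      σ • σ • h • w + h • w = 2 • σ • h • w) : C • C • w = 0 := by
  classical
  obtain ⟨π, τ, hπ, hτI, hτ⟩ := TW.exists_pi_tau hq hA hp
  -- the Galois submodule
  let V : SubMulAction Γℚ J :=
    { carrier := {x | p ^ m • x = 0 ∧ ∀ h : Γℚ, ∀ σ ∈ A.inertiaSubgroupIn ℚ,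
        σ • σ • h • x + h • x = 2 • σ • h • x}
      smul_mem' := fun g x hx => ⟨by rw [smul_comm, hx.1, smul_zero], fun h σ hσ => by
        have := hx.2 (h * g) σ hσ
        rwa [mul_smul] at this⟩ }
  have hVadd : ∀ x ∈ V, ∀ y ∈ V, x + y ∈ V := fun x hx y hy => ⟨by
    rw [smul_add, hx.1, hy.1, add_zero], fun h σ hσ => by
    have h1 := hx.2 h σ hσ
    have h2 := hy.2 h σ hσ
    simp only [smul_add]
    calc σ • σ • h • x + σ • σ • h • y + (h • x + h • y)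
        = (σ • σ • h • x + h • x) + (σ • σ • h • y + h • y) := by abel
      _ = _ := by rw [h1, h2]⟩
  have hVneg : ∀ x ∈ V, -x ∈ V := fun x hx => ⟨by
    rw [smul_neg, hx.1, neg_zero], fun h σ hσ => by
    have h1 := hx.2 h σ hσ
    simp only [smul_neg]
    rw [← h1]
    abel⟩
  have hV0 : (0 : J) ∈ V := ⟨smul_zero _, fun h σ _ => by simp⟩
  have hVnsmul : ∀ (k : ℕ), ∀ x ∈ V, k • x ∈ V := by
    intro k x hx
    induction k with
    | zero => rw [zero_smul]; exact hV0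
    | succ k ih => rw [succ_nsmul]; exact hVadd _ ih _ hx
  have hwV : w ∈ V := ⟨hw, hsq⟩
  haveI : Finite V := Finite.of_injective (β := {x : J // p ^ m • x = 0})
    (fun x => ⟨x.1, x.2.1⟩) fun x y hxy => Subtype.ext (congrArg
      (fun z : {x : J // p ^ m • x = 0} => (z : J)) hxy)
  have hVsq : ∀ x ∈ V, ∀ σ ∈ A.inertiaSubgroupIn ℚ, σ • σ • x = σ • x + (σ • x - x) := by
    intro x hx σ hσ
    have h1 := hx.2 1 σ hσ
    rw [one_smul, two_nsmul] at h1
    rw [← add_sub_assoc, ← h1, add_sub_cancel_right]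
  have hpow : ∀ x ∈ V, ∀ σ ∈ A.inertiaSubgroupIn ℚ, ∀ k : ℕ,
      (σ ^ k) • x = x + k • (σ • x - x) := by
    intro x hx σ hσ k
    induction k with
    | zero => rw [pow_zero, one_smul, zero_smul, add_zero]
    | succ k ih =>
      rw [pow_succ', mul_smul, ih, smul_add, smul_comm σ k, smul_sub, hVsq x hx σ hσ,
        add_sub_cancel_left, succ_nsmul]
      abel
  let ρ : ↥(A.inertiaSubgroupIn ℚ) →* Equiv.Perm V :=
    (MulAction.toPermHom Γℚ V).comp (A.inertiaSubgroupIn ℚ).subtype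
  have hρ : ∀ (σ : ↥(A.inertiaSubgroupIn ℚ)) (x : V), ((ρ σ x : V) : J) = (σ : Γℚ) • (x : J) :=
    fun σ x => rfl
  obtain ⟨E, hE, hE'⟩ := hfix
  obtain ⟨hgen, -⟩ := H12.tame_inertia (P := Equiv.Perm V) hq hA hp hpq π hπ τ hτI hτ ρ
    (fun σ => ⟨m, by
      ext x
      rw [← map_pow, hρ, Equiv.Perm.one_apply]
      change ((σ : Γℚ) ^ p ^ m) • (x : J) = x
      rw [hpow x x.2 σ σ.2, smul_sub, smul_comm, x.2.1, smul_zero, sub_zero, add_zero]⟩)
    E.fixingSubgroup (IntermediateField.fixingSubgroup_isOpen E) (fun σ hσ => by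
      ext x
      rw [hρ, Equiv.Perm.one_apply]
      exact hE' σ (fun a ha => (IntermediateField.mem_fixingSubgroup_iff E _).mp hσ a ha) x x.2.1)
  -- fixed points of `τ` are fixed by inertia
  have hfixed : ∀ x ∈ V, τ • x = x → ∀ σ ∈ A.inertiaSubgroupIn ℚ, σ • x = x := by
    intro x hx hτx σ hσ
    obtain ⟨n, hn⟩ := hgen ⟨σ, hσ⟩
    have h1 : ρ ⟨τ, hτI⟩ ⟨x, hx⟩ = ⟨x, hx⟩ := Subtype.ext hτx
    have h2 : (ρ ⟨τ, hτI⟩ ^ n) ⟨x, hx⟩ = ⟨x, hx⟩ := Equiv.Perm.zpow_apply_eq_self_of_apply_eq_self h1 n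
    rw [← hn] at h2
    exact congrArg Subtype.val h2
  -- main argument
  have hw'V : τ • w - w ∈ V := by
    rw [sub_eq_add_neg]
    exact hVadd _ (V.smul_mem τ hwV) _ (hVneg _ hwV)
  have h1 : τ • (τ • w - w) = τ • w - w := by
    rw [smul_sub, hVsq w hwV τ hτI, add_sub_cancel_left]
  have h2 : C • (τ • w - w) = 0 := hR _ hw'V.1 (hfixed _ hw'V h1)
    (Pr.sub_mem (hPr τ w hwPr) hwPr)
  have h3 : τ • (C • w) = C • w := by
    rw [smul_comm τ C w, ← sub_eq_zero, ← smul_sub, h2]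
  exact hR _ (by rw [smul_comm, hw, smul_zero]) (hfixed _ (hVnsmul C w hwV) h3)
    (Pr.nsmul_mem hwPr C)

end Fermat.Agent.RR
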