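import Fermat.Agent.RR.Push
import Fermat.Agent.Q.Transfer

/-!
# Removing the auxiliary level structure from `THEOREM R`
-/

set_option autoImplicit false
set_option linter.style.haveILetI false
set_option linter.unusedSectionVars false
set_option maxSynthPendingDepth 3

noncomputable section

open AlgebraicCurve ModularCurve

namespace Fermat.Agent.RR

open Fermat.Agent.H05 Fermat.Agent.Igusa Fermat.Agent.Q

local notation "Qb" => AlgebraicClosure ℚ

section Pull

variable {N N' s : ℕ} [NeZero N] [NeZero N'] [hs : Fact s.Prime]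

theorem incN_eq (h : N ∣ N') : incN h = inc Qb h := AlgHom.ext fun x => Subtype.ext <| by
  rw [coe_incN, coe_inc]

/-- The kernel of the pull-back is killed by the degree. -/
theorem smul_eq_zero_of_pullN (hN' : N' = N * s) (h : N ∣ N') {m : ℕ} (hm : m ≠ 0) {x : JZero N}
    (hx : m • x = 0) (h0 : pullN hN' h x = 0) : finrankAlong Qb (incN h) • x = 0 := by
  obtain ⟨v, -⟩ := H05.exists_place_infinity_bc Qb N'
  obtain ⟨f, hf⟩ := H05.exists_kum hx
  have h1 := kum_pullN hN' h hf
  rw [h0] at h1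
  obtain ⟨g, hg, hfg⟩ := h1.exists_pow_of_zero (H05.deg_eq_one_bc Qb N' v) hm
  have h2 : f ^ finrankAlong Qb (incN h) = H05.normAlong (incN h) g ^ m := by
    rw [← normAlong_self, hfg, normAlong_pow]
  have h3 := kum_nsmul hf (finrankAlong Qb (incN h))
  rw [h2] at h3
  exact h3.unique_left hm (H05.kum_zero_pow m (normAlong_ne_zero _ (fin_incN hN' h) hg))

end Pull

section Step

variable {M q s : ℕ} [NeZero M] [NeZero q] [hs : Fact s.Prime] [NeZero (M * s)]

instance neZero_mulmul (M q : ℕ) [NeZero M] [NeZero q] : NeZero (M * q) :=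
  ⟨mul_ne_zero (NeZero.ne M) (NeZero.ne q)⟩

theorem level_eq1 (M q s : ℕ) : M * s * q = M * q * s := by ring
theorem level_eq2 (M q s : ℕ) : M * s * q * q = M * q * q * s := by ring
theorem level_dvd1 (M q s : ℕ) : M * q ∣ M * s * q := ⟨s, by ring⟩
theorem level_dvd2 (M q s : ℕ) : M * q * q ∣ M * s * q * q := ⟨s, by ring⟩

/-- pull-back from level `M q ^ 2` to level `M s q ^ 2` -/
abbrev pull2 (M q s : ℕ) [NeZero M] [NeZero q] [Fact s.Prime] [NeZero (M * s)] :
    JZero (M * q * q) →+ JZero (M * s * q * q) := pullN (level_eq2 M q s) (level_dvd2 M q s)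

/-- pull-back from level `M q` to level `M s q` -/
abbrev pull1 (M q s : ℕ) [NeZero M] [NeZero q] [Fact s.Prime] [NeZero (M * s)] :
    JZero (M * q) →+ JZero (M * s * q) := pullN (level_eq1 M q s) (level_dvd1 M q s)

theorem norm_alpha_inc (hq : q.Prime) (hsq : s ≠ q) (f : modularFunctionFieldBar (M * q * q)) :
    normAlong (heckeAlphaBar Qb (M * s * q) q) (incN (level_dvd2 M q s) f) =
      incN (level_dvd1 M q s) (normAlong (heckeAlphaBar Qb (M * q) q) f) := by
  have hss := hs.out
  haveI : NeZero s := ⟨hss.ne_zero⟩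
  rw [incN_eq, incN_eq]
  exact normAlong_baseChange (inc Qb (level_dvd1 M q s)) (heckeAlphaBar Qb (M * q) q)
    (heckeAlphaBar Qb (M * s * q) q) (inc Qb (level_dvd2 M q s))
    (by rw [heckeAlphaBar_eq, heckeAlphaBar_eq, inc_comp_inc, inc_comp_inc])
    (finiteAlong_alpha Qb (M * q) q) (finiteAlong_alpha Qb (M * s * q) q)
    (gen_inc_inc Qb hq hss (Ne.symm hsq) (level_eq1 M q s) rfl (by ring)
      (dvd_mul_right _ _) (level_dvd2 M q s))
    (by
      rw [heckeAlphaBar_eq, heckeAlphaBar_eq,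
        finrankAlong_inc_prime Qb hq (dvd_mul_right _ _) rfl,
        finrankAlong_inc_prime Qb hq (dvd_mul_right _ _) rfl,
        if_pos (dvd_mul_left q _), if_pos (dvd_mul_left q _)])
    f

theorem norm_beta_inc (hq : q.Prime) (hsq : s ≠ q) (f : modularFunctionFieldBar (M * q * q)) :
    normAlong (heckeBetaBar Qb (M * s * q) q) (incN (level_dvd2 M q s) f) =
      incN (level_dvd1 M q s) (normAlong (heckeBetaBar Qb (M * q) q) f) := by
  have hss := hs.out
  haveI : NeZero s := ⟨hss.ne_zero⟩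
  rw [incN_eq, incN_eq]
  refine normAlong_baseChange (inc Qb (level_dvd1 M q s)) (heckeBetaBar Qb (M * q) q)
    (heckeBetaBar Qb (M * s * q) q) (inc Qb (level_dvd2 M q s))
    (comp_comm Qb (dvd_refl (M * q * q)) (level_dvd1 M q s) (level_dvd2 M q s)
      (dvd_refl (M * s * q * q))).symm
    (finiteAlong_beta Qb (M * q) q) (finiteAlong_beta Qb (M * s * q) q)
    (fun S h1 h2 => gen_prime Qb hss hq hsq (M := M * q) (M₁ := M * q * q) (M₂ := M * s * q)
      rfl (level_eq1 M q s) (level_eq2 M q s)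
      (level_dvd2 M q s) dvd_rfl S h2 h1)
    (by
      rw [heckeBetaBar_eq, heckeBetaBar_eq,
        finrankAlong_qe_prime Qb hq rfl (dvd_refl _),
        finrankAlong_qe_prime Qb hq rfl (dvd_refl _),
        if_pos (dvd_mul_left q _), if_pos (dvd_mul_left q _)])
    f

theorem aPush_pull (hq : q.Prime) (hsq : s ≠ q) {m : ℕ} (hm : m ≠ 0) {x : JZero (M * q * q)}
    (hx : m • x = 0) :
    aPush (M * s * q) q (pull2 M q s x) = pull1 M q s (aPush (M * q) q x) := by
  obtain ⟨f, hf⟩ := H05.exists_kum hx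
  have h1 := (kum_pullN (level_eq2 M q s) (level_dvd2 M q s) hf).degPush Qb
  have h2 := kum_pullN (level_eq1 M q s) (level_dvd1 M q s) (hf.degPush Qb)
  rw [norm_alpha_inc hq hsq] at h1
  exact h1.unique_left hm h2

theorem bPush_pull (hq : q.Prime) (hsq : s ≠ q) {m : ℕ} (hm : m ≠ 0) {x : JZero (M * q * q)}
    (hx : m • x = 0) :
    bPush (M * s * q) q (pull2 M q s x) = pull1 M q s (bPush (M * q) q x) := by
  obtain ⟨f, hf⟩ := H05.exists_kum hx
  have h1 := (kum_pullN (level_eq2 M q s) (level_dvd2 M q s) hf).degPushB Qb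
  have h2 := kum_pullN (level_eq1 M q s) (level_dvd1 M q s) (hf.degPushB Qb)
  rw [norm_beta_inc hq hsq] at h1
  exact h1.unique_left hm h2

/-- One step of the reduction. -/
theorem theoremR_step {p : ℕ} {A : ValuationSubring Qb} (hq : q.Prime) (hp : p.Prime)
    (hsq : s ≠ q) (h : TheoremR (M * s) q p A) : TheoremR M q p A := by
  obtain ⟨C, hC, h⟩ := h
  haveI : NeZero s := ⟨hs.out.ne_zero⟩
  have hdeg : 0 < finrankAlong Qb (incN (level_dvd2 M q s)) := by
    rw [incN_eq, finrankAlong_inc_prime Qb hs.out _ (level_eq2 M q s)]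
    split_ifs
    · exact hs.out.pos
    · exact Nat.succ_pos _
  refine ⟨finrankAlong Qb (incN (level_dvd2 M q s)) * C, Nat.mul_pos hdeg hC,
    fun n x hx hI ha hb => ?_⟩
  have hm : p ^ n ≠ 0 := pow_ne_zero _ hp.ne_zero
  have h1 := h n (pull2 M q s x) (by rw [← map_nsmul, hx, map_zero])
    (fun σ hσ => by
      have := pullN_galois (level_eq2 M q s) (level_dvd2 M q s) hm σ hx
      rw [hI σ hσ] at this
      exact this.symm)
    (by rw [aPush_pull hq hsq hm hx, ha, map_zero])
    (by rw [bPush_pull hq hsq hm hx, hb, map_zero])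
  rw [← map_nsmul] at h1
  rw [mul_smul]
  exact smul_eq_zero_of_pullN (level_eq2 M q s) (level_dvd2 M q s) hm
    (by rw [smul_comm, hx, smul_zero]) h1

end Step

/-- `THEOREM R` at all levels. -/
theorem theoremR_of_aux (H : TheoremRAux) {M q p : ℕ} [NeZero M] [NeZero q]
    {A : ValuationSubring Qb} (hq : q.Prime) (hp : p.Prime) (hpq : p ≠ q) (hqM : ¬ q ∣ M)
    (hA : A.LiesOverPrime q) : TheoremR M q p A := by
  by_cases hq2 : q = 2
  · haveI : Fact (Nat.Prime 3) := ⟨Nat.prime_three⟩
    haveI : NeZero (M * 3) := ⟨mul_ne_zero (NeZero.ne M) (by norm_num)⟩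
    haveI : NeZero (M * 3 * 3) := ⟨mul_ne_zero (NeZero.ne (M * 3)) (by norm_num)⟩
    have h3q : 3 ≠ q := by rw [hq2]; norm_num
    have h33 : ¬ q ∣ 3 := fun h => h3q ((Nat.prime_dvd_prime_iff_eq hq Nat.prime_three).mp h).symm
    refine theoremR_step (s := 3) hq hp h3q (theoremR_step (s := 3) hq hp h3q
      (H (M * 3 * 3) q p A hq hp hpq ?_ (fun h => absurd hq2 h) (fun _ => ?_) hA))
    · intro h
      rcases (Nat.Prime.dvd_mul hq).mp h with h | h
      · rcases (Nat.Prime.dvd_mul hq).mp h with h | h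
        · exact hqM h
        · exact h33 h
      · exact h33 h
    · exact ⟨M, by ring⟩
  · haveI : Fact (Nat.Prime 2) := ⟨Nat.prime_two⟩
    haveI : NeZero (M * 2) := ⟨mul_ne_zero (NeZero.ne M) (by norm_num)⟩
    haveI : NeZero (M * 2 * 2) := ⟨mul_ne_zero (NeZero.ne (M * 2)) (by norm_num)⟩
    have h3q : 2 ≠ q := Ne.symm hq2
    have h33 : ¬ q ∣ 2 := fun h => h3q ((Nat.prime_dvd_prime_iff_eq hq Nat.prime_two).mp h).symm
    refine theoremR_step (s := 2) hq hp h3q (theoremR_step (s := 2) hq hp h3q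
      (H (M * 2 * 2) q p A hq hp hpq ?_ (fun _ => ?_) (fun h => absurd h hq2) hA))
    · intro h
      rcases (Nat.Prime.dvd_mul hq).mp h with h | h
      · rcases (Nat.Prime.dvd_mul hq).mp h with h | h
        · exact hqM h
        · exact h33 h
      · exact h33 h
    · exact ⟨M, by ring⟩

end Fermat.Agent.RR
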