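import Mathlib
import Fermat.Agent.AL.Newform
import Fermat.Agent.H22.CharK
import Fermat.Agent.H05.TransferAut

/-!
# The eigensystem of a newform does not factor through the Hecke algebra of a lower level
-/

set_option autoImplicit false
set_option linter.style.haveILetI false

noncomputable section

namespace Fermat.Agent.RR

open CongruenceSubgroup ModularCurve ModularCurve.Period Fermat.Agent.H22
open ModularFormClass (qCoeff)

/-! ### Every complex character of the Hecke algebra occurs in the space of cusp forms -/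

section Char

variable {N : ℕ} [NeZero N]

/-- **Every complex character of the Hecke algebra occurs in `S₂(Γ₀(N))`.** -/
theorem exists_form_of_char (S : Set ℕ) (χ : CuspForm.heckeAlgebra N 2 S →+* ℂ) :
    ∃ f : CuspForm (Gamma0 N) 2, f ≠ 0 ∧ ∀ x : CuspForm.heckeAlgebra N 2 S,
      (x : Module.End ℂ (CuspForm (Gamma0 N) 2)) f = χ x • f := by
  obtain ⟨v, hv, hpar, hann, heig⟩ := exists_eigenvector (N := N) S χ
  have h1 := H05.wLin_mem_parabolicHoms ℂ N ℂ hpar
  rw [← (ES.eichlerShimura N).2] at h1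
  obtain ⟨⟨f, g⟩, hfg⟩ := h1
  obtain ⟨pml, hpml, hdef⟩ := ModularCurve.periodHomPair_def N H16.existsPeriodMapLinear
  have hinj := (ES.eichlerShimura N).1
  -- the pair map, twisted by `w`
  have hΦ : ∀ f g : CuspForm (Gamma0 N) 2, wLin ℂ N ℂ (periodHomPair N (f, g)) =
      (esMap N f + charInvolution N ℂ ℂ (esMap N f)) +
        (esMap N g - charInvolution N ℂ ℂ (esMap N g)) := by
    intro f g
    rw [hdef]
    simp only [LinearMap.coprod_apply, LinearMap.comp_apply, LinearMap.add_apply,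
      LinearMap.sub_apply, LinearMap.id_apply, hpml]
    rw [map_add, map_add, map_sub, H05.wLin_charInvolution, H05.wLin_charInvolution,
      ← esMap_apply, ← esMap_apply]
  have hv' : v = wLin ℂ N ℂ (periodHomPair N (f, g)) := by rw [hfg, wLin_wLin]
  have hkey : ∀ x : CuspForm.heckeAlgebra N 2 S,
      (x : Module.End ℂ (CuspForm (Gamma0 N) 2)) f = χ x • f ∧
      (x : Module.End ℂ (CuspForm (Gamma0 N) 2)) g = χ x • g := by
    intro x
    obtain ⟨t, ht⟩ := heckeEvalForms_surjective (N := N) (awayIncl N S x)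
    have ht' : (CuspForm.heckeEvalForms N 2 t : Module.End ℂ (CuspForm (Gamma0 N) 2)) = x := by
      rw [ht, coe_awayIncl]
    have h2 := heig x t ht'
    rw [hv', hΦ, map_add, map_add, map_sub, H05.heckeAct_charInvolution,
      H05.heckeAct_charInvolution, ← esMap_hecke, ← esMap_hecke, ht', ← hΦ, ← hΦ, ← map_smul,
      ← map_smul] at h2
    have h3 := congrArg (wLin ℂ N ℂ) h2
    rw [wLin_wLin, wLin_wLin] at h3
    have h4 := hinj h3
    exact ⟨congrArg Prod.fst h4, congrArg Prod.snd h4⟩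
  by_cases hf : f = 0
  · refine ⟨g, fun hg => hv ?_, fun x => (hkey x).2⟩
    rw [hv', hf, hg]
    have : ((0, 0) : CuspForm (Gamma0 N) 2 × CuspForm (Gamma0 N) 2) = 0 := rfl
    rw [this, map_zero, map_zero]
  · exact ⟨f, hf, fun x => (hkey x).1⟩

end Char

/-! ### The polynomial Hecke algebra away from `S` -/

section Away

/-- The primes outside `S`. -/
abbrev AwayIdx (S : Set ℕ) : Type := {ℓ : Nat.Primes // (ℓ : ℕ) ∉ S}

/-- The abstract Hecke algebra away from `S`. -/
abbrev AwayAlg (S : Set ℕ) : Type := MvPolynomial (AwayIdx S) ℤ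

/-- The inclusion in the full abstract Hecke algebra. -/
def awayRen (S : Set ℕ) : AwayAlg S →+* HeckeAlg :=
  (MvPolynomial.rename (R := ℤ) Subtype.val).toRingHom

theorem awayRen_X {S : Set ℕ} (i : AwayIdx S) : awayRen S (MvPolynomial.X i) =
    heckeGen i.1 := MvPolynomial.rename_X _ _

variable (N : ℕ) [NeZero N] (S : Set ℕ)

open scoped Classical in
/-- The generators. -/
def awayGen (i : AwayIdx S) : CuspForm.heckeAlgebra N 2 S :=
  if h : (i.1 : ℕ) ∣ N then CuspForm.heckeAlgebra.U i.1.2 h i.2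
  else CuspForm.heckeAlgebra.T i.1.2 h i.2

theorem awayGen_of_not_dvd {i : AwayIdx S} (h : ¬ (i.1 : ℕ) ∣ N) :
    awayGen N S i = CuspForm.heckeAlgebra.T i.1.2 h i.2 := dif_neg h

theorem awayGen_of_dvd {i : AwayIdx S} (h : (i.1 : ℕ) ∣ N) :
    awayGen N S i = CuspForm.heckeAlgebra.U i.1.2 h i.2 := dif_pos h

/-- The evaluation. -/
def awayEval : AwayAlg S →+* CuspForm.heckeAlgebra N 2 S :=
  (MvPolynomial.aeval (R := ℤ) (awayGen N S)).toRingHom

theorem awayEval_X (i : AwayIdx S) : awayEval N S (MvPolynomial.X i) = awayGen N S i :=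
  MvPolynomial.aeval_X _ _

theorem awayIncl_awayEval (P : AwayAlg S) :
    awayIncl N S (awayEval N S P) = CuspForm.heckeEvalForms N 2 (awayRen S P) := by
  have : (awayIncl N S).comp (awayEval N S) =
      (CuspForm.heckeEvalForms N 2).comp (awayRen S) := by
    apply MvPolynomial.ringHom_ext
    · intro n
      have h1 : ∀ n : ℤ, (MvPolynomial.C n : AwayAlg S) = (n : AwayAlg S) := fun n => by
        rw [← MvPolynomial.algebraMap_eq, eq_intCast]
      rw [h1, map_intCast, map_intCast]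
    · intro i
      rw [RingHom.comp_apply, RingHom.comp_apply, awayRen_X, awayEval_X,
        CuspForm.heckeEvalForms_heckeGen]
      apply Subtype.ext
      by_cases h : (i.1 : ℕ) ∣ N
      · rw [awayGen_of_dvd N S h, CuspForm.heckeFormsGen_of_dvd h, coe_awayIncl]
        rfl
      · rw [awayGen_of_not_dvd N S h, CuspForm.heckeFormsGen_of_not_dvd h, coe_awayIncl]
        rfl
  exact RingHom.congr_fun this P

theorem coe_awayEval (P : AwayAlg S) :
    (CuspForm.heckeEvalForms N 2 (awayRen S P) : Module.End ℂ (CuspForm (Gamma0 N) 2)) =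
      awayEval N S P := by
  rw [← awayIncl_awayEval, coe_awayIncl]

theorem awayEval_surjective : Function.Surjective (awayEval N S) := by
  rintro ⟨x, hx⟩
  induction hx using Algebra.adjoin_induction with
  | mem x hx =>
    rcases hx with ⟨ℓ, hℓ, hℓN, hℓS, rfl⟩ | ⟨q, hqN, hq, hqS, rfl⟩
    · exact ⟨MvPolynomial.X ⟨⟨ℓ, hℓ⟩, hℓS⟩, by
        rw [awayEval_X, awayGen_of_not_dvd N S (i := ⟨⟨ℓ, hℓ⟩, hℓS⟩) hℓN]; rfl⟩
    · exact ⟨MvPolynomial.X ⟨⟨q, hq⟩, hqS⟩, by
        rw [awayEval_X, awayGen_of_dvd N S (i := ⟨⟨q, hq⟩, hqS⟩) hqN]; rfl⟩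
  | algebraMap r =>
    refine ⟨(r : AwayAlg S), ?_⟩
    rw [map_intCast]
    rfl
  | add x y hx hy h1 h2 =>
    obtain ⟨t1, h1⟩ := h1
    obtain ⟨t2, h2⟩ := h2
    exact ⟨t1 + t2, by rw [map_add, h1, h2]; rfl⟩
  | mul x y hx hy h1 h2 =>
    obtain ⟨t1, h1⟩ := h1
    obtain ⟨t2, h2⟩ := h2
    exact ⟨t1 * t2, by rw [map_mul, h1, h2]; rfl⟩

end Away

/-! ### Newforms -/

section Newform

variable {N : ℕ} [NeZero N]

/-- The eigensystem of a newform of level `N` does not factor through the Hecke algebra of a level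
properly dividing `N`. -/
theorem exists_separating {g : CuspForm (Gamma0 N) 2} (hg : g.IsNewform) {M : ℕ} [NeZero M]
    (hM : M ∣ N) (hne : M ≠ N) (S : Finset ℕ) (φ : AwayAlg (↑S : Set ℕ) →+* ℂ)
    (hφ : ∀ i : AwayIdx (↑S : Set ℕ), φ (MvPolynomial.X i) = qCoeff g i.1) :
    ∃ P : AwayAlg (↑S : Set ℕ), CuspForm.heckeEvalForms M 2 (awayRen _ P) = 0 ∧ φ P ≠ 0 := by
  by_contra hcon
  push Not at hcon
  have hker : RingHom.ker (awayEval M (↑S : Set ℕ)) ≤ RingHom.ker φ := by
    intro P hP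
    rw [RingHom.mem_ker] at hP ⊢
    apply hcon
    rw [← awayIncl_awayEval, hP, map_zero]
  let χ : CuspForm.heckeAlgebra M 2 (↑S : Set ℕ) →+* ℂ :=
    (awayEval M (↑S : Set ℕ)).liftOfSurjective (awayEval_surjective M _) ⟨φ, hker⟩
  have hχ : ∀ P, χ (awayEval M (↑S : Set ℕ) P) = φ P := fun P =>
    RingHom.liftOfRightInverse_comp_apply _ _ _ ⟨φ, hker⟩ P
  obtain ⟨f, hf0, hf⟩ := exists_form_of_char (↑S : Set ℕ) χ
  apply hf0
  have hD : (∏ ℓ ∈ S.filter Nat.Prime, ℓ) ≠ 0 :=
    Finset.prod_ne_zero_iff.mpr fun ℓ hℓ => (Finset.mem_filter.mp hℓ).2.ne_zero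
  refine AL.no_proper_level hg hM hne hD f fun ℓ hℓ hℓM hℓD => ?_
  have hℓS : ℓ ∉ (↑S : Set ℕ) := fun h => hℓD (Finset.dvd_prod_of_mem _
    (Finset.mem_filter.mpr ⟨by exact_mod_cast h, hℓ⟩))
  have h1 := hf (CuspForm.heckeAlgebra.T hℓ hℓM hℓS)
  have h2 := hχ (MvPolynomial.X ⟨⟨ℓ, hℓ⟩, hℓS⟩)
  rw [awayEval_X, awayGen_of_not_dvd M _ (i := ⟨⟨ℓ, hℓ⟩, hℓS⟩) hℓM, hφ] at h2
  rw [h2] at h1
  exact h1

/-- A nonzero element in the image of a character of the Hecke algebra divides a nonzero integer. -/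
theorem exists_int_multiple {S : Set ℕ} (χ : CuspForm.heckeAlgebra N 2 S →+* ℂ)
    (x : CuspForm.heckeAlgebra N 2 S) (hx : χ x ≠ 0) :
    ∃ (y : CuspForm.heckeAlgebra N 2 S) (c : ℤ), c ≠ 0 ∧ χ (y * x) = c := by
  have hfin : Module.Finite ℤ (CuspForm.heckeAlgebra N 2 S) :=
    Fermat.Agent.H16.moduleFinite_heckeAlgebra N 2 S
  let R := χ.range
  let z : R := χ.rangeRestrict x
  have hz : z ≠ 0 := fun h => hx (congrArg Subtype.val h)
  have hint : IsIntegral ℤ z := by
    have h1 : IsIntegral ℤ x := Algebra.IsIntegral.isIntegral x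
    exact h1.map χ.rangeRestrict.toIntAlgHom
  have h2 := Ideal.comap_ne_bot_of_integral_mem (R := ℤ) (I := Ideal.span {z}) hz
    (Ideal.mem_span_singleton_self z) hint
  obtain ⟨c, hc, hc0⟩ := Submodule.exists_mem_ne_zero_of_ne_bot h2
  rw [Ideal.mem_comap, Ideal.mem_span_singleton'] at hc
  obtain ⟨w, hw⟩ := hc
  obtain ⟨y, rfl⟩ := χ.rangeRestrict_surjective w
  refine ⟨y, c, hc0, ?_⟩
  have h3 : χ y * χ x = ((algebraMap ℤ R c : R) : ℂ) := congrArg Subtype.val hw
  rw [map_mul, h3, eq_intCast]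
  rfl

end Newform

end Fermat.Agent.RR
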