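import Mathlib
import Fermat.Agent.Descent.Input2
import Fermat.Agent.H05.TransferAut

/-!
# Relations between Hecke operators on cusp forms hold on `J₀(N)[m]` up to a constant
-/

set_option autoImplicit false
set_option linter.style.haveILetI false
set_option maxSynthPendingDepth 3

noncomputable section

namespace Fermat.Agent.RR

open AlgebraicCurve CongruenceSubgroup ModularCurve Fermat.Agent.H22 Fermat.Agent.H26
  Fermat.Agent.H01 Fermat.Agent.H05

section Group

open scoped DirectSum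

/-- Homomorphisms from a finitely generated abelian group come, up to a constant, from homomorphisms
to `ℤ`. -/
theorem exists_dual_basis_comm (H : Type*) [AddCommGroup H] [AddGroup.FG H] :
    ∃ (t₀ : ℕ) (n : ℕ) (ψ : Fin n → (H →+ ℤ)), 0 < t₀ ∧
      ∀ {A : Type} [AddCommGroup A] (φ : H →+ A), ∃ a : Fin n → A,
        ∀ g, t₀ • φ g = ∑ i, ψ i g • a i := by
  classical
  obtain ⟨n, ι, fι, p, hp, e, ⟨E⟩⟩ := AddCommGroup.equiv_free_prod_directSum_zmod H
  let t₀ : ℕ := ∏ i, p i ^ e i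
  have ht₀ : 0 < t₀ := Finset.prod_pos fun i _ ↦ pow_pos (hp i).pos _
  have hD : ∀ d : ⨁ i : ι, ZMod (p i ^ e i), t₀ • d = 0 := by
    intro d
    refine DFinsupp.ext fun i ↦ ?_
    rw [DirectSum.smul_apply]
    obtain ⟨c, hc⟩ : p i ^ e i ∣ t₀ := Finset.dvd_prod_of_mem _ (Finset.mem_univ i)
    rw [hc, mul_comm, mul_smul, nsmul_eq_mul (p i ^ e i) (d i), ZMod.natCast_self, zero_mul,
      smul_zero]
    rfl
  let ψ : Fin n → (H →+ ℤ) := fun i ↦
    (Finsupp.applyAddHom i).comp ((AddMonoidHom.fst _ _).comp E.toAddMonoidHom)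
  refine ⟨t₀, n, ψ, ht₀, fun {A} _ φ ↦ ⟨fun i ↦ φ (E.symm (Finsupp.single i (t₀ : ℤ), 0)), ?_⟩⟩
  intro g
  have h1 : t₀ • g = E.symm (∑ i, ψ i g • (Finsupp.single i (t₀ : ℤ) : Fin n →₀ ℤ), 0) := by
    rw [← E.symm_apply_apply g, ← map_nsmul]
    congr 1
    apply Prod.ext
    · change t₀ • (E g).1 = ∑ i, ψ i (E.symm (E g)) • (Finsupp.single i (t₀ : ℤ) : Fin n →₀ ℤ)
      rw [E.symm_apply_apply]
      refine Finsupp.ext fun j ↦ ?_
      rw [Finsupp.finset_sum_apply, Finset.sum_eq_single j]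
      · rw [Finsupp.smul_apply, Finsupp.smul_apply, Finsupp.single_eq_same]
        change t₀ • (E g).1 j = (E g).1 j • (t₀ : ℤ)
        rw [nsmul_eq_mul, smul_eq_mul, mul_comm]
      · intro b _ hb
        rw [Finsupp.smul_apply, Finsupp.single_eq_of_ne hb.symm, smul_zero]
      · intro hj
        exact absurd (Finset.mem_univ j) hj
    · exact hD _
  have h2 : (∑ i, ψ i g • (Finsupp.single i (t₀ : ℤ) : Fin n →₀ ℤ),
      (0 : ⨁ i : ι, ZMod (p i ^ e i))) =
      ∑ i, ψ i g • ((Finsupp.single i (t₀ : ℤ) : Fin n →₀ ℤ), (0 : ⨁ i : ι, ZMod (p i ^ e i))) := by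
    apply Prod.ext
    · rw [Prod.fst_sum]
      rfl
    · rw [Prod.snd_sum]
      simp
  rw [← map_nsmul, h1, h2, map_sum, map_sum]
  refine Finset.sum_congr rfl fun i _ ↦ ?_
  rw [map_zsmul, map_zsmul]

/-- Homomorphisms from a finitely generated group killing a set come, up to a constant, from
homomorphisms to `ℤ`. -/
theorem exists_dual_basis (G : Type*) [Group G] [Group.FG G] (T : Set G) :
    ∃ (t₀ : ℕ) (n : ℕ) (ψ : Fin n → (Additive G →+ ℤ)), 0 < t₀ ∧
      (∀ i, ∀ g ∈ T, ψ i (Additive.ofMul g) = 0) ∧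
      ∀ {A : Type} [AddCommGroup A] (φ : Additive G →+ A),
        (∀ g ∈ T, φ (Additive.ofMul g) = 0) → ∃ a : Fin n → A,
        ∀ g, t₀ • φ g = ∑ i, ψ i g • a i := by
  classical
  let Ab := Abelianization G
  let T' : Subgroup Ab := Subgroup.closure (Abelianization.of '' T)
  let H := Ab ⧸ T'
  let pr : G →* H := (QuotientGroup.mk' T').comp Abelianization.of
  have hpr : Function.Surjective pr :=
    (QuotientGroup.mk'_surjective T').comp (fun x ↦ QuotientGroup.mk_surjective x)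
  haveI : Group.FG H := Group.fg_of_surjective hpr
  haveI : AddGroup.FG (Additive H) := inferInstance
  obtain ⟨t₀, n, ψ, ht₀, h⟩ := exists_dual_basis_comm (Additive H)
  have hT : ∀ g ∈ T, pr g = 1 := by
    intro g hg
    change (QuotientGroup.mk' T') (Abelianization.of g) = 1
    rw [QuotientGroup.mk'_apply, QuotientGroup.eq_one_iff]
    exact Subgroup.subset_closure ⟨g, hg, rfl⟩
  refine ⟨t₀, n, fun i ↦ (ψ i).comp (MonoidHom.toAdditive pr), ht₀, fun i g hg ↦ ?_,
    fun {A} _ φ hφ ↦ ?_⟩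
  · change ψ i (Additive.ofMul (pr g)) = 0
    rw [hT g hg, ofMul_one, map_zero]
  · let φ₁ : G →* Multiplicative A := φ.toMultiplicativeRight
    let φ₂ : Ab →* Multiplicative A := Abelianization.lift φ₁
    have hφ₂ : ∀ x ∈ T', φ₂ x = 1 := by
      intro x hx
      have : T' ≤ φ₂.ker := by
        rw [Subgroup.closure_le]
        rintro _ ⟨g, hg, rfl⟩
        change φ₂ (Abelianization.of g) = 1
        rw [Abelianization.lift_apply_of]
        exact congrArg Multiplicative.ofAdd (hφ g hg)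
      exact this hx
    let φ₃ : H →* Multiplicative A := QuotientGroup.lift T' φ₂ hφ₂
    have h3 : ∀ g, φ₃ (pr g) = φ₁ g := by
      intro g
      change φ₃ (QuotientGroup.mk (Abelianization.of g)) = _
      rw [QuotientGroup.lift_mk, Abelianization.lift_apply_of]
    obtain ⟨a, ha⟩ := h (MonoidHom.toAdditiveLeft φ₃)
    refine ⟨a, fun g ↦ ?_⟩
    have h4 := ha (Additive.ofMul (pr g.toMul))
    have h5 : (MonoidHom.toAdditiveLeft φ₃) (Additive.ofMul (pr g.toMul)) = φ g := by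
      change (φ₃ (pr g.toMul)).toAdd = φ g
      rw [h3]
      rfl
    rw [h5] at h4
    exact h4

end Group

section Main

variable [Algebra (AlgebraicClosure ℚ) ℂ] (N : ℕ) [NeZero N]

theorem kap_parabolic {m : ℕ} [hm : NeZero m] (x : Tor N m) (γ : Gamma0 N)
    (hγ : ((γ : Matrix.SpecialLinearGroup (Fin 2) ℤ) : Matrix (Fin 2) (Fin 2) ℤ).trace ^ 2 = 4) :
    kap x γ = 1 := by
  obtain ⟨f, hf, hfψ⟩ := kap_spec x
  have h1 := (embMF N).strongDvd hf.ne_zero hf.dvd
  refine hfψ.eq_one_of_trace_sq hm.out h1 γ ?_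
  rw [Matrix.trace_fin_two] at hγ
  exact hγ

/-- **Relations between Hecke operators on `S₂(Γ₀(N))` hold on `J₀(N)[m]` up to a constant
independent of `m`.** -/
theorem exists_tors : ∃ t₀ : ℕ, 0 < t₀ ∧ ∀ (m : ℕ) [NeZero m] (P : HeckeAlg),
    CuspForm.heckeEvalForms N 2 P = 0 → ∀ x : Tor N m, t₀ • torAct N m P x = 0 := by
  obtain ⟨t₀, n, ψ, ht₀, hψ, h⟩ := exists_dual_basis (Gamma0 N)
    {γ | ((γ : Matrix.SpecialLinearGroup (Fin 2) ℤ) : Matrix (Fin 2) (Fin 2) ℤ).trace ^ 2 = 4}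
  refine ⟨t₀, ht₀, fun m hm P hP x ↦ ?_⟩
  have hpar : ∀ i, ψ i ∈ Period.parabolicHoms ℤ (Gamma0 N) ℤ := fun i γ hγ ↦ hψ i γ hγ
  obtain ⟨a, ha⟩ := h (kappa N m x) (fun γ hγ ↦ by
    have := kap_parabolic N x γ hγ
    rw [kappa_apply]
    change Additive.ofMul (kap x γ) = 0
    rw [this]
    rfl)
  have h1 : t₀ • kappa N m x = ∑ i, ((zmultiplesHom (Additive ℂˣ)) (a i)).comp (ψ i) := by
    refine AddMonoidHom.ext fun g ↦ ?_
    rw [AddMonoidHom.finset_sum_apply]
    exact ha g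
  apply kappa_injective
  have h2 : kappa N m (torAct N m P x) = heckeAct ℤ N (Additive ℂˣ) P (kappa N m x) :=
    intertwine_heckeAct (torAct N m) (kappa N m) (fun ℓ w ↦ by
      rw [torAct_heckeGen, kappa_heckeTor]) P x
  rw [map_nsmul, h2, ← map_nsmul, h1, map_sum, map_zero]
  refine Finset.sum_eq_zero fun i _ ↦ ?_
  rw [heckeAct_map (R := ℤ) (R' := ℤ), heckeAct_eq_zero_int P hP (hpar i), AddMonoidHom.comp_zero]

end Main

end Fermat.Agent.RR
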