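import Mathlib
import Fermat.Agent.RR.Level
import Fermat.Agent.RR.Element
import Fermat.Agent.RR.Tors
import Fermat.Agent.RR.NoFactor
import Fermat.Agent.RR.Inertia
import Fermat.Agent.H05.Local

/-!
# Newforms of level exactly divisible by `q²` are not unipotent on inertia at `q`
-/

set_option autoImplicit false
set_option linter.style.haveILetI false
set_option maxSynthPendingDepth 3

noncomputable section

open AlgebraicCurve ModularCurve

namespace Fermat.Agent.RR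

open CongruenceSubgroup Fermat.Agent.H05 Fermat.Agent.H22 Fermat.Agent.H26 Fermat.Agent.H01
open ModularFormClass (qCoeff)

local notation "Qb" => AlgebraicClosure ℚ
local notation "Γℚ" => AlgebraicClosure ℚ ≃ₐ[ℚ] AlgebraicClosure ℚ

section Push

variable [Algebra (AlgebraicClosure ℚ) ℂ] {N N' : ℕ} [NeZero N] [NeZero N'] {n : ℕ} [NeZero n]

/-- The restriction of a homomorphism to torsion points. -/
def torMap (n : ℕ) (Φ : JZero N →+ JZero N') : Tor N n →+ Tor N' n where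
  toFun x := ⟨Φ (x : JZero N), mem_tor.mpr (by rw [← map_nsmul, tor_nsmul, map_zero])⟩
  map_zero' := Subtype.ext (map_zero Φ)
  map_add' x y := Subtype.ext (map_add Φ (x : JZero N) (y : JZero N))

omit [Algebra (AlgebraicClosure ℚ) ℂ] [NeZero n] in
@[simp] theorem coe_torMap (Φ : JZero N →+ JZero N') (x : Tor N n) :
    ((torMap n Φ x : Tor N' n) : JZero N') = Φ (x : JZero N) := rfl

set_option maxHeartbeats 1000000 in
theorem torMap_torAct {S : Set ℕ} (Φ : JZero N →+ JZero N')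
    (hΦ : ∀ ℓ : Nat.Primes, (ℓ : ℕ) ∉ S → ∀ x : JZero N, n • x = 0 →
      Φ (heckeOperatorBar N ℓ x) = heckeOperatorBar N' ℓ (Φ x))
    (P : AwayAlg S) (x : Tor N n) :
    torMap n Φ (torAct N n (awayRen S P) x) = torAct N' n (awayRen S P) (torMap n Φ x) := by
  refine evalComm_intertwine ((torAct N n).comp (awayRen S)) ((torAct N' n).comp (awayRen S))
    (torMap n Φ) (fun i v => ?_) P x
  rw [RingHom.comp_apply, RingHom.comp_apply, awayRen_X, torAct_heckeGen, torAct_heckeGen]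
  apply Subtype.ext
  exact hΦ i.1 i.2 v (tor_nsmul v)

theorem torAct_intCast (c : ℤ) (x : Tor N n) :
    torAct N n (c : HeckeAlg) x = c • x := by
  rw [map_intCast, Module.End.intCast_apply]

set_option maxHeartbeats 1000000 in
/-- The push-forward of a point killed by a congruence ideal is killed by a constant. -/
theorem smul_torMap_eq_zero {S : Set ℕ} (Φ : JZero N →+ JZero N')
    (hΦ : ∀ ℓ : Nat.Primes, (ℓ : ℕ) ∉ S → ∀ x : JZero N, n • x = 0 →
      Φ (heckeOperatorBar N ℓ x) = heckeOperatorBar N' ℓ (Φ x))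
    (P Y : AwayAlg S) (c : ℤ) (t₀ : ℕ) (w : Tor N n)
    (hw : torAct N n (awayRen S ((c : AwayAlg S) - Y * P)) w = 0)
    (hP : ∀ y : Tor N' n, t₀ • torAct N' n (awayRen S P) y = 0) :
    (t₀ * c.natAbs) • Φ (w : JZero N) = 0 := by
  have h1 : c • w = torAct N n (awayRen S (Y * P)) w := by
    rw [map_sub, map_sub, map_intCast, LinearMap.sub_apply, torAct_intCast, sub_eq_zero] at hw
    exact hw
  have h2 : c • torMap n Φ w = torAct N' n (awayRen S Y)
      (torAct N' n (awayRen S P) (torMap n Φ w)) := by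
    rw [← map_zsmul, h1, torMap_torAct Φ hΦ, map_mul, map_mul, Module.End.mul_apply]
  have h3 : t₀ • c • torMap n Φ w = 0 := by
    rw [h2, ← map_nsmul, hP, map_zero]
  have h4 : c • t₀ • torMap n Φ w = 0 := by rw [smul_comm, h3]
  rw [← natAbs_nsmul_eq_zero] at h4
  have h5 := congrArg (fun z : Tor N' n => (z : JZero N')) h4
  rw [mul_comm, mul_smul]
  exact h5

end Push

section Valuation

variable {O : Type*} [CommRing O] [IsDomain O] [IsDiscreteValuationRing O] [CharZero O]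

theorem exists_pow_le (p m : ℕ) (hp : p ≠ 0) :
    ∃ n : ℕ, ∀ x ∈ IsLocalRing.maximalIdeal O ^ n, (p : O) ^ m ∣ x := by
  obtain ⟨ϖ, hϖ⟩ := IsDiscreteValuationRing.exists_irreducible O
  have h0 : Ideal.span {(p : O) ^ m} ≠ ⊥ := by
    rw [Ne, Ideal.span_singleton_eq_bot]
    exact pow_ne_zero _ (by exact_mod_cast hp)
  obtain ⟨n, hn⟩ := IsDiscreteValuationRing.ideal_eq_span_pow_irreducible h0 hϖ
  refine ⟨n, fun x hx => ?_⟩
  rw [← Ideal.mem_span_singleton, hn, ← Ideal.span_singleton_pow,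
    ← (IsDiscreteValuationRing.irreducible_iff_uniformizer ϖ).mp hϖ]
  exact hx

end Valuation

section Main

theorem trace_eq_two {T V : Type*} [CommRing T] [Nontrivial T] [AddCommGroup V]
    [Module T V] [Module.Free T V] [Module.Finite T V] (hV : Module.finrank T V = 2)
    (f : Module.End T V) (h : f.charpoly = (Polynomial.X - 1) ^ 2) :
    LinearMap.trace T V f = 2 := by
  have h1 := charpoly_eq_trace_det hV f
  rw [h] at h1
  have h2 := congrArg (fun P : Polynomial T => P.coeff 1) h1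
  have h3 : ((Polynomial.X - 1 : Polynomial T) ^ 2).coeff 1 = -2 := by
    have : (Polynomial.X - 1 : Polynomial T) ^ 2 =
        Polynomial.X ^ 2 - Polynomial.C 2 * Polynomial.X + Polynomial.C 1 := by
      rw [map_ofNat, map_one]; ring
    rw [this]
    simp [Polynomial.coeff_X_pow, Polynomial.coeff_one]
  simp only [h3] at h2
  have h4 : (Polynomial.X ^ 2 - Polynomial.C (LinearMap.trace T V f) * Polynomial.X +
      Polynomial.C (LinearMap.det f) : Polynomial T).coeff 1 = -LinearMap.trace T V f := by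
    simp [Polynomial.coeff_X_pow, Polynomial.coeff_C]
  rw [h4] at h2
  have := neg_injective h2
  exact this.symm

variable [Algebra (AlgebraicClosure ℚ) ℂ] {N : ℕ} [NeZero N] {p : ℕ} {S : Finset ℕ}
  {O : Type} [CommRing O] [IsDomain O] [IsDiscreteValuationRing O] [CharZero O]

theorem away_coe {n : ℕ} [NeZero n] {T : Set ℕ} (x : CuspForm.heckeAlgebra N 2 T) (t : HeckeAlg)
    (ht : (CuspForm.heckeEvalForms N 2 t : Module.End ℂ (CuspForm (Gamma0 N) 2)) = x)
    (y : torForms N n) :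
    (((formsPartActAway N (torAct N n) T x y : torForms N n) : Tor N n) : JZero N) =
      (torAct N n t (y : Tor N n) : Tor N n) :=
  congrArg (fun z : Tor N n => (z : JZero N)) (formsPartActAway_apply (torAct N n) x t ht y)

set_option maxHeartbeats 2000000 in
theorem es_away (hES : ∀ (m : ℕ) (ℓ : ℕ) (hℓ : ℓ.Prime), ¬ ℓ ∣ N → ℓ ≠ p →
      ∀ A : ValuationSubring (AlgebraicClosure ℚ), A.LiesOverPrime ℓ →
      ∀ φ : Γℚ, A.IsFrobeniusAt φ ℓ → ∀ x : JZero N, (p ^ m) • x = 0 →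
        φ • φ • x - heckeOperatorBar N ⟨ℓ, hℓ⟩ (φ • x) + ℓ • x = 0) (m : ℕ) [NeZero (p ^ m)] :
    ∀ (ℓ : ℕ) (hℓ : ℓ.Prime) (hℓN : ¬ ℓ ∣ N) (hℓS : ℓ ∉ (↑S : Set ℕ)), ℓ ≠ p →
      ∀ A : ValuationSubring (AlgebraicClosure ℚ), A.LiesOverPrime ℓ →
      ∀ φ : Γℚ, A.IsFrobeniusAt φ ℓ → ∀ w : torForms N (p ^ m),
        formsGal N (p ^ m) φ (formsGal N (p ^ m) φ w) -
          formsPartActAway N (torAct N (p ^ m)) (↑S : Set ℕ) (CuspForm.heckeAlgebra.T hℓ hℓN hℓS)
            (formsGal N (p ^ m) φ w) + (ℓ : ℕ) • w = 0 := by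
  intro ℓ hℓ hℓN hℓS hℓp A hA φ hφ w
  refine Subtype.ext (Subtype.ext ?_)
  have h1 := hES m ℓ hℓ hℓN hℓp A hA φ hφ _ (tor_nsmul (w : Tor N (p ^ m)))
  have h2 := formsPartActAway_T (torAct N (p ^ m)) hℓ hℓN hℓS (formsGal N (p ^ m) φ w)
  have h2' : torAct N (p ^ m) (heckeGen ⟨ℓ, hℓ⟩) = heckeTor N (p ^ m) ⟨ℓ, hℓ⟩ :=
    torAct_heckeGen _
  rw [h2'] at h2
  have h3 := congrArg (fun z : Tor N (p ^ m) => (z : JZero N)) h2
  simp only [Submodule.coe_add, Submodule.coe_sub, AddSubgroup.coe_add, AddSubgroup.coe_sub,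
    h3, coe_formsGal]
  exact h1

set_option maxHeartbeats 2000000 in
/-- For `σ` in an inertia group at which `ρ` is unipotent, `σ + σ⁻¹ - 2` is given on the forms part
of the torsion by a Hecke operator in the congruence ideal. -/
theorem exists_trace_elem (hCheb : WeakChebotarev) (hp : p.Prime)
    (hpS : p ∈ S) (hNS : ∀ q : ℕ, q.Prime → q ∣ N → q ∈ S)
    (π : CuspForm.heckeAlgebra N 2 (↑S : Set ℕ) →+* O) (ρ : GaloisRepAdic O)
    (hfrob : ∀ (ℓ : ℕ) (hℓ : ℓ.Prime) (hℓN : ¬ ℓ ∣ N) (hℓS : ℓ ∉ (↑S : Set ℕ)),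
      ∀ A : ValuationSubring (AlgebraicClosure ℚ), A.LiesOverPrime ℓ →
        ∀ σ : Γℚ, A.IsFrobeniusAt σ ℓ → LinearMap.charpoly (ρ.ρ σ) =
          Polynomial.X ^ 2 - Polynomial.C (π (CuspForm.heckeAlgebra.T hℓ hℓN hℓS)) * Polynomial.X
            + Polynomial.C ((ℓ : O)))
    (hES : ∀ (m : ℕ) (ℓ : ℕ) (hℓ : ℓ.Prime), ¬ ℓ ∣ N → ℓ ≠ p →
      ∀ A : ValuationSubring (AlgebraicClosure ℚ), A.LiesOverPrime ℓ →
      ∀ φ : Γℚ, A.IsFrobeniusAt φ ℓ → ∀ x : JZero N, (p ^ m) • x = 0 →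
        φ • φ • x - heckeOperatorBar N ⟨ℓ, hℓ⟩ (φ • x) + ℓ • x = 0)
    {q : ℕ} (hq : q.Prime) (hqp : q ≠ p) (hU : ρ.IsUnipotentOnInertiaAt q)
    {A : ValuationSubring Qb} (hA : A.LiesOverPrime q) (m : ℕ) [NeZero (p ^ m)]
    (σ : Γℚ) (hσ : σ ∈ A.inertiaSubgroupIn ℚ) :
    ∃ (x : CuspForm.heckeAlgebra N 2 (↑S : Set ℕ)) (c : ℕ), (p : O) ^ m ∣ π (x - 2) ∧
      ((p ^ m : ℕ) : ℤ) ∣ (c : ℤ) - 1 ∧
      ∀ y : torForms N (p ^ m), formsPartActAway N (torAct N (p ^ m)) (↑S : Set ℕ) x y =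
        formsGal N (p ^ m) σ y + c • formsGal N (p ^ m) σ⁻¹ y := by
  obtain ⟨n, hn⟩ := exists_pow_le (O := O) p m hp.ne_zero
  have hprim : ∃ ζ : AlgebraicClosure ℚ, IsPrimitiveRoot ζ (p ^ m) := by
    haveI : NeZero ((p ^ m : ℕ) : AlgebraicClosure ℚ) :=
      ⟨by exact_mod_cast (pow_pos hp.pos m).ne'⟩
    exact HasEnoughRootsOfUnity.exists_primitiveRoot (AlgebraicClosure ℚ) (p ^ m)
  obtain ⟨ζ, hζ⟩ := hprim
  obtain ⟨s, c, hs1, hs2, hs3, hs4⟩ := exists_hecke_trace_det hCheb hp hpS hNS ρ π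
    hfrob (W := torForms N (p ^ m)) (formsPartActAway N (torAct N (p ^ m)) (↑S : Set ℕ))
    (formsGal N (p ^ m)) (formsGal_finiteLevel N (p ^ m)) (es_away hES m) n m ζ hζ.pow_eq_one σ
  have hσζ : σ ζ = ζ := inertia_apply_rootOfUnity hq hA
    (fun h => hqp ((Nat.prime_dvd_prime_iff_eq hq hp).mp (hq.dvd_of_dvd_pow h))) hσ
    hζ.pow_eq_one
  refine ⟨s, c, ?_, ?_, hs3⟩
  · have htr : LinearMap.trace O ρ.V (ρ.ρ σ) = 2 := trace_eq_two ρ.finrank_eq _ (hU A hA σ hσ)
    rw [htr] at hs1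
    have h1 := hn _ hs1
    rw [map_sub, map_ofNat, ← neg_sub]
    exact (dvd_neg).mpr h1
  · have h1 : ζ ^ c = ζ := by rw [← hs4, hσζ]
    have hζ0 : ζ ≠ 0 := hζ.ne_zero (pow_pos hp.pos _).ne'
    rw [← hζ.zpow_eq_one_iff_dvd, zpow_sub₀ hζ0, zpow_natCast, zpow_one, h1, div_self hζ0]

set_option maxHeartbeats 2000000 in
/-- The relation `(σ - 1)² = 0` on the Galois module generated by a point killed by a
congruence ideal. -/
theorem sq_relation_aux {n : ℕ} [NeZero n] {T : Set ℕ} (w : Tor N n) (hwF : w ∈ torForms N n)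
    (x : CuspForm.heckeAlgebra N 2 T) (c : ℕ)
    (hx : ∀ t : HeckeAlg, (CuspForm.heckeEvalForms N 2 t :
      Module.End ℂ (CuspForm (Gamma0 N) 2)) = ↑(x - 2) → torAct N n t w = 0)
    (hc : ((n : ℕ) : ℤ) ∣ (c : ℤ) - 1) (h σ : Γℚ)
    (hs3 : ∀ y : torForms N n, formsPartActAway N (torAct N n) T x y =
      formsGal N n σ y + c • formsGal N n σ⁻¹ y) :
    σ • σ • h • (w : JZero N) + h • (w : JZero N) = 2 • σ • h • (w : JZero N) := by
  have hyt : n • (h • (w : JZero N)) = 0 := by rw [smul_comm, tor_nsmul, smul_zero]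
  obtain ⟨t, ht⟩ := heckeEvalForms_surjective (N := N) (awayIncl N T x)
  have ht1 : (CuspForm.heckeEvalForms N 2 t : Module.End ℂ (CuspForm (Gamma0 N) 2)) = x := by
    rw [ht, coe_awayIncl]
  have ht' : (CuspForm.heckeEvalForms N 2 (t - 2) : Module.End ℂ (CuspForm (Gamma0 N) 2)) =
      ((x - 2 : CuspForm.heckeAlgebra N 2 T) : Module.End ℂ (CuspForm (Gamma0 N) 2)) := by
    rw [map_sub, map_ofNat]
    exact congrArg (fun z => z - 2) ht1
  have hk : torAct N n (t - 2) w = 0 := hx (t - 2) ht'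
  have hk' : torAct N n t w = 2 • w := by
    rw [map_sub, LinearMap.sub_apply, sub_eq_zero, map_ofNat] at hk
    rw [hk]
    exact Module.End.ofNat_apply 2 w
  have hk2 : torAct N n t (torGal N n h w) = 2 • torGal N n h w := by
    rw [← torGal_torAct, hk', map_nsmul]
  have h1 := away_coe x t ht1 (formsGal N n h ⟨w, hwF⟩)
  have h3 : ((formsGal N n h ⟨w, hwF⟩ : torForms N n) : Tor N n) = torGal N n h w := rfl
  rw [h3, hk2, hs3] at h1
  have hc1 : ∀ z : JZero N, n • z = 0 → c • z = z := by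
    intro z hz
    obtain ⟨d, hd⟩ := hc
    have h2 : (c : ℤ) = 1 + (n : ℕ) * d := by omega
    rw [← natCast_zsmul, h2, add_smul, one_smul, mul_comm, mul_smul, natCast_zsmul, hz, smul_zero,
      add_zero]
  have h5 : σ • h • (w : JZero N) + c • σ⁻¹ • h • (w : JZero N) = 2 • h • (w : JZero N) := h1
  rw [hc1 _ (by rw [smul_comm, hyt, smul_zero])] at h5
  have h6 := congrArg (fun z => σ • z) h5
  simp only [smul_add] at h6
  rw [← mul_smul σ σ⁻¹, mul_inv_cancel, one_smul] at h6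
  rw [h6, smul_comm σ 2]

end Main

end Fermat.Agent.RR
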