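import Mathlib
import Fermat.Agent.RR.SqRel
import Fermat.Agent.H25.Density

/-!
# Newforms of level exactly divisible by `q²` are not unipotent on inertia at `q`
-/

set_option autoImplicit false
set_option linter.style.haveILetI false
set_option maxSynthPendingDepth 3

noncomputable section

open AlgebraicCurve ModularCurve

namespace Fermat.Agent.RR

open CongruenceSubgroup Fermat.Agent.H05 Fermat.Agent.H22 Fermat.Agent.H26 Fermat.Agent.H01
open ModularFormClass (qCoeff)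

local notation "Qb" => AlgebraicClosure ℚ
local notation "Γℚ" => AlgebraicClosure ℚ ≃ₐ[ℚ] AlgebraicClosure ℚ

/-- A point of `p`-power order killed by `C` is killed by `p ^ C`. -/
theorem pow_nsmul_eq_zero {J : Type*} [AddCommGroup J] {p : ℕ} (hp : p.Prime) {C m : ℕ}
    (hC : 0 < C) {w : J} (h1 : p ^ m • w = 0) (h2 : C • w = 0) : p ^ C • w = 0 := by
  have h3 : (addOrderOf w) ∣ p ^ m := addOrderOf_dvd_of_nsmul_eq_zero h1
  obtain ⟨j, hj, hj'⟩ := (Nat.dvd_prime_pow hp).mp h3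
  have h4 : addOrderOf w ∣ C := addOrderOf_dvd_of_nsmul_eq_zero h2
  have h5 : j ≤ C := by
    have h6 : p ^ j ≤ C := hj' ▸ Nat.le_of_dvd hC h4
    exact le_trans (Nat.lt_pow_self hp.one_lt).le h6
  apply addOrderOf_dvd_iff_nsmul_eq_zero.mp
  rw [hj']
  exact Nat.pow_dvd_pow p h5

variable {O : Type} [CommRing O] [IsDomain O] [IsDiscreteValuationRing O] [CharZero O]

set_option maxHeartbeats 1000000 in
theorem not_isUnipotent_aux (HR : TheoremRAux) {M q : ℕ} [NeZero M] [NeZero q] (hqM : ¬ q ∣ M)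
    (hq : q.Prime) {g : CuspForm (Gamma0 (M * q * q)) 2} (hg : g.IsNewform) {p : ℕ} (hp : p.Prime)
    (hqp : q ≠ p) {S : Finset ℕ} (hpS : p ∈ S)
    (hNS : ∀ ℓ : ℕ, ℓ.Prime → ℓ ∣ M * q * q → ℓ ∈ S)
    (hpO : (p : O) ∈ IsLocalRing.maximalIdeal O)
    (chig : CuspForm.heckeAlgebra (M * q * q) 2 (↑S : Set ℕ) →+* ℂ)
    (hchig : ∀ (ℓ : ℕ) (hℓ : ℓ.Prime) (hℓN : ¬ ℓ ∣ M * q * q) (hℓS : ℓ ∉ (↑S : Set ℕ)),
      chig (CuspForm.heckeAlgebra.T hℓ hℓN hℓS) = qCoeff g ℓ)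
    (π : CuspForm.heckeAlgebra (M * q * q) 2 (↑S : Set ℕ) →+* O)
    (hπ : ∀ x, chig x = 0 → π x = 0) (ρ : GaloisRepAdic O)
    (hfrob : ∀ (ℓ : ℕ) (hℓ : ℓ.Prime) (hℓN : ¬ ℓ ∣ M * q * q) (hℓS : ℓ ∉ (↑S : Set ℕ)),
      ∀ A : ValuationSubring (AlgebraicClosure ℚ), A.LiesOverPrime ℓ →
        ∀ σ : Γℚ, A.IsFrobeniusAt σ ℓ → LinearMap.charpoly (ρ.ρ σ) =
          Polynomial.X ^ 2 - Polynomial.C (π (CuspForm.heckeAlgebra.T hℓ hℓN hℓS)) * Polynomial.X
            + Polynomial.C ((ℓ : O)))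
    (hES : ∀ (m : ℕ) (ℓ : ℕ) (hℓ : ℓ.Prime), ¬ ℓ ∣ M * q * q → ℓ ≠ p →
      ∀ A : ValuationSubring (AlgebraicClosure ℚ), A.LiesOverPrime ℓ →
      ∀ φ : Γℚ, A.IsFrobeniusAt φ ℓ → ∀ x : JZero (M * q * q), (p ^ m) • x = 0 →
        φ • φ • x - heckeOperatorBar (M * q * q) ⟨ℓ, hℓ⟩ (φ • x) + ℓ • x = 0)
    (hU : ρ.IsUnipotentOnInertiaAt q) : False := by
  letI : Algebra (AlgebraicClosure ℚ) ℂ :=
    (IsAlgClosed.lift : AlgebraicClosure ℚ →ₐ[ℚ] ℂ).toRingHom.toAlgebra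
  obtain ⟨A, hA⟩ := exists_liesOverPrime (AlgebraicClosure ℚ) hq
  obtain ⟨CR, hCR, hR⟩ := theoremR_of_aux HR hq hp (Ne.symm hqp) hqM hA
  obtain ⟨c, hc⟩ := exists_element hp hpO π
  obtain ⟨t₀, ht₀, ht⟩ := exists_tors (M * q)
  have hM0 : M ≠ 0 := NeZero.ne M
  have hMq : M * q ≠ M * q * q := by
    intro h
    have h1 : M * q * 1 = M * q * q := by rw [mul_one]; exact h
    have h2 := Nat.eq_of_mul_eq_mul_left (Nat.mul_pos hM0.bot_lt hq.pos) h1
    exact hq.one_lt.ne h2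
  obtain ⟨P, hP1, hP2⟩ := exists_separating hg (M := M * q) (Dvd.intro q rfl) hMq S
    (chig.comp (awayEval (M * q * q) (↑S : Set ℕ))) (by
      intro i
      have hi : ¬ (i.1 : ℕ) ∣ M * q * q := fun h => i.2 (hNS _ i.1.2 h)
      rw [RingHom.comp_apply, awayEval_X, awayGen_of_not_dvd _ _ hi]
      exact hchig _ i.1.2 hi i.2)
  obtain ⟨y, c₃, hc₃, hy⟩ := exists_int_multiple chig _ hP2
  obtain ⟨Y, rfl⟩ := awayEval_surjective (M * q * q) (↑S : Set ℕ) y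
  have hker : π (awayEval (M * q * q) (↑S : Set ℕ) ((c₃ : AwayAlg (↑S : Set ℕ)) - Y * P)) = 0 := by
    apply hπ
    rw [map_sub, map_sub, map_mul, hy, map_intCast, map_intCast, sub_self]
  have hc₃' : 0 < c₃.natAbs := Int.natAbs_pos.mpr hc₃
  set k : ℕ := t₀ * c₃.natAbs with hk
  have hk0 : 0 < k := Nat.mul_pos ht₀ hc₃'
  set Ct : ℕ := CR * CR * k with hCt
  have hCt0 : 0 < Ct := Nat.mul_pos (Nat.mul_pos hCR hCR) hk0
  set m : ℕ := Ct + 1 + c with hm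
  haveI hnz : NeZero (p ^ m) := ⟨(pow_pos hp.pos m).ne'⟩
  obtain ⟨w, hw1, hw2, hw3⟩ := hc m (by omega)
  have hww : torAct (M * q * q) (p ^ m)
      (awayRen (↑S : Set ℕ) ((c₃ : AwayAlg (↑S : Set ℕ)) - Y * P)) w = 0 :=
    hw2 _ _ (coe_awayEval _ _ _) (by rw [hker]; exact dvd_zero _)
  have hℓq : ∀ ℓ : Nat.Primes, (ℓ : ℕ) ∉ (↑S : Set ℕ) → q ≠ (ℓ : ℕ) := fun ℓ hℓ h =>
    hℓ (h ▸ hNS q hq (Dvd.intro_left _ rfl))
  have ha : k • aPush (M * q) q (w : JZero (M * q * q)) = 0 :=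
    smul_torMap_eq_zero (aPush (M * q) q) (fun ℓ hℓ x _ => by
      haveI : NeZero (ℓ : ℕ) := ⟨ℓ.2.ne_zero⟩
      exact degPush_hecke (AlgebraicClosure ℚ) ℓ.2 hq (hℓq ℓ hℓ) x) P Y c₃ t₀ w hww
      (fun y => ht (p ^ m) _ hP1 y)
  have hb : k • bPush (M * q) q (w : JZero (M * q * q)) = 0 :=
    smul_torMap_eq_zero (bPush (M * q) q) (fun ℓ hℓ x hx => by
      haveI : NeZero (ℓ : ℕ) := ⟨ℓ.2.ne_zero⟩
      exact degPushB_hecke (AlgebraicClosure ℚ) ℓ.2 hq (hℓq ℓ hℓ)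
        (pow_pos hp.pos m).ne' hx) P Y c₃ t₀ w hww
      (fun y => ht (p ^ m) _ hP1 y)
  have hsq : ∀ h : Γℚ, ∀ σ ∈ A.inertiaSubgroupIn ℚ,
      σ • σ • h • (w : JZero (M * q * q)) + h • (w : JZero (M * q * q)) =
        2 • σ • h • (w : JZero (M * q * q)) := by
    intro h σ hσ
    obtain ⟨x, cc, hx1, hx2, hx3⟩ := exists_trace_elem H25.weakChebotarev hp hpS hNS π ρ hfrob hES
      hq hqp hU hA m σ hσ
    exact sq_relation_aux w hw1 x cc (fun t ht => hw2 _ t ht hx1) hx2 h σ hx3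
  have hfin : Finite {x : JZero (M * q * q) // p ^ m • x = 0} := finite_tor (M * q * q) (p ^ m)
  have hfix := exists_fixing_field_finite (modularFunctionFieldFull (M * q * q))
    (pow_pos hp.pos m).ne' hfin
  have hfinal := unipotent_descent hq hp (Ne.symm hqp) hA m hfix hfin
    ((aPush (M * q) q).ker ⊓ (bPush (M * q) q).ker) (by
      intro σ x hx
      refine ⟨?_, ?_⟩
      · have h1 : aPush (M * q) q x = 0 := hx.1
        change aPush (M * q) q (σ • x) = 0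
        rw [aPush, degPush_galois, ← aPush, h1, smul_zero]
      · have h1 : bPush (M * q) q x = 0 := hx.2
        change bPush (M * q) q (σ • x) = 0
        rw [bPush, degPushB_galois, ← bPush, h1, smul_zero]) CR
    (fun x hx1 hx2 hx3 => hR m x hx1 hx2 hx3.1 hx3.2) (k • (w : JZero (M * q * q)))
    (by rw [smul_comm, tor_nsmul, smul_zero])
    ⟨by change aPush (M * q) q _ = 0; rw [map_nsmul, ha],
      by change bPush (M * q) q _ = 0; rw [map_nsmul, hb]⟩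
    (by
      intro h σ hσ
      have h1 := congrArg (fun z => k • z) (hsq h σ hσ)
      simp only [smul_add] at h1
      rw [smul_comm h k, smul_comm σ k, smul_comm σ k, smul_comm 2 k]
      exact h1)
  have h7 : Ct • (w : JZero (M * q * q)) = 0 := by
    rw [hCt, mul_smul, mul_smul]
    exact hfinal
  have h8 := pow_nsmul_eq_zero hp hCt0 (tor_nsmul w) h7
  apply hw3
  have h9 : m - 1 - c = Ct := by omega
  rw [h9]
  exact Subtype.ext h8

end Fermat.Agent.RR
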