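import Mathlib
import Fermat.Agent.RR.Final
import Fermat.Agent.H25.S30Reduction
import Fermat.Agent.Descent.Input2

/-!
# S36 from `THEOREM R` and the good reduction of `J₀(N)`
-/

set_option autoImplicit false
set_option linter.style.haveILetI false
set_option maxSynthPendingDepth 3

noncomputable section

open AlgebraicCurve ModularCurve

namespace Fermat.Agent.RR

open CongruenceSubgroup Fermat.Agent.H05 Fermat.Agent.H22 Fermat.Agent.H26 Fermat.Agent.H01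
open ModularFormClass (qCoeff)

local notation "Qb" => AlgebraicClosure ℚ
local notation "Γℚ" => AlgebraicClosure ℚ ≃ₐ[ℚ] AlgebraicClosure ℚ

variable {O : Type} [CommRing O] [IsDomain O] [IsDiscreteValuationRing O] [CharZero O]

/-- A newform of level `N` with `q² ∥ N` has a representation which is not unipotent on inertia
at `q`. -/
theorem not_isUnipotent (HR : TheoremRAux) {N : ℕ} [NeZero N]
    {g : CuspForm (Gamma0 N) 2} (hg : g.IsNewform) {p : ℕ} (hp : p.Prime)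
    {S : Finset ℕ} (hpS : p ∈ S)
    (hNS : ∀ ℓ : ℕ, ℓ.Prime → ℓ ∣ N → ℓ ∈ S)
    (hpO : (p : O) ∈ IsLocalRing.maximalIdeal O)
    (chig : CuspForm.heckeAlgebra N 2 (↑S : Set ℕ) →+* ℂ)
    (hchig : ∀ (ℓ : ℕ) (hℓ : ℓ.Prime) (hℓN : ¬ ℓ ∣ N) (hℓS : ℓ ∉ (↑S : Set ℕ)),
      chig (CuspForm.heckeAlgebra.T hℓ hℓN hℓS) = qCoeff g ℓ)
    (π : CuspForm.heckeAlgebra N 2 (↑S : Set ℕ) →+* O)
    (hπ : ∀ x, chig x = 0 → π x = 0) (ρ : GaloisRepAdic O)
    (hfrob : ∀ (ℓ : ℕ) (hℓ : ℓ.Prime) (hℓN : ¬ ℓ ∣ N) (hℓS : ℓ ∉ (↑S : Set ℕ)),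
      ∀ A : ValuationSubring (AlgebraicClosure ℚ), A.LiesOverPrime ℓ →
        ∀ σ : Γℚ, A.IsFrobeniusAt σ ℓ → LinearMap.charpoly (ρ.ρ σ) =
          Polynomial.X ^ 2 - Polynomial.C (π (CuspForm.heckeAlgebra.T hℓ hℓN hℓS)) * Polynomial.X
            + Polynomial.C ((ℓ : O)))
    (hES : ∀ (m : ℕ) (ℓ : ℕ) (hℓ : ℓ.Prime), ¬ ℓ ∣ N → ℓ ≠ p →
      ∀ A : ValuationSubring (AlgebraicClosure ℚ), A.LiesOverPrime ℓ →
      ∀ φ : Γℚ, A.IsFrobeniusAt φ ℓ → ∀ x : JZero N, (p ^ m) • x = 0 →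
        φ • φ • x - heckeOperatorBar N ⟨ℓ, hℓ⟩ (φ • x) + ℓ • x = 0)
    {q : ℕ} (hq : q.Prime) (hqp : q ≠ p) (hqN : N.factorization q = 2) :
    ¬ ρ.IsUnipotentOnInertiaAt q := by
  intro hU
  obtain ⟨M, hqM, hM⟩ : ∃ M : ℕ, ¬ q ∣ M ∧ N = M * q * q := by
    refine ⟨N / q ^ 2, ?_, ?_⟩
    · have := Nat.not_dvd_ordCompl hq (NeZero.ne N)
      rwa [hqN] at this
    · have h1 := Nat.ordProj_mul_ordCompl_eq_self N q
      rw [hqN] at h1
      rw [mul_assoc, ← pow_two, mul_comm]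
      exact h1.symm
  subst hM
  haveI : NeZero q := ⟨hq.ne_zero⟩
  haveI : NeZero M := ⟨fun h => hqM (h ▸ dvd_zero q)⟩
  exact not_isUnipotent_aux HR hqM hq hg hp hqp hpS hNS hpO chig hchig π hπ ρ hfrob hES hU

/-- **S36 from `THEOREM R`, the Eichler–Shimura relation and the good reduction of `J₀(M)`.** -/
theorem s36_of_input (HR : TheoremRAux)
    {M : ℕ} [NeZero M] {g : CuspForm (Gamma0 M) 2} (hg : g.IsNewform)
    (lam : ℕ) [Fact lam.Prime] (S : Finset ℕ)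
    (hIn : ∀ (m : ℕ) (q : ℕ), q.Prime → ¬ q ∣ M → q ≠ lam →
      ∀ A : ValuationSubring (AlgebraicClosure ℚ), A.LiesOverPrime q →
      ∀ τ ∈ A.inertiaSubgroupIn ℚ, ∀ x : JZero M, (lam ^ m) • x = 0 → τ • x = x)
    (hES : ∀ (m : ℕ) (ℓ : ℕ) (hℓ : ℓ.Prime), ¬ ℓ ∣ M → ℓ ≠ lam →
      ∀ A : ValuationSubring (AlgebraicClosure ℚ), A.LiesOverPrime ℓ →
      ∀ φ : AlgebraicClosure ℚ ≃ₐ[ℚ] AlgebraicClosure ℚ, A.IsFrobeniusAt φ ℓ →
      ∀ x : JZero M, (lam ^ m) • x = 0 →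
        φ • φ • x - heckeOperatorBar M ⟨ℓ, hℓ⟩ (φ • x) + ℓ • x = 0)
    (O' : Type) [CommRing O'] [IsDomain O'] [IsDiscreteValuationRing O']
    [IsAdicComplete (IsLocalRing.maximalIdeal O') O'] [Finite (IsLocalRing.ResidueField O')]
    [CharZero O'] (hlamO' : (lam : O') ∈ IsLocalRing.maximalIdeal O')
    (chig : CuspForm.heckeAlgebra M 2 (↑S : Set ℕ) →+* ℂ)
    (hchig : ∀ (ℓ : ℕ) (hℓ : ℓ.Prime) (hℓM : ¬ ℓ ∣ M) (hℓS : ℓ ∉ (↑S : Set ℕ)),
      chig (CuspForm.heckeAlgebra.T hℓ hℓM hℓS) = ModularFormClass.qCoeff g ℓ)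
    (iota : chig.range →+* O')
    (hlamS : lam ∈ S) (hMS : ∀ q : ℕ, q.Prime → q ∣ M → q ∈ S) :
    ∃ (O'' : Type) (_ : CommRing O'') (_ : IsDomain O'') (_ : IsDiscreteValuationRing O'')
      (_ : IsAdicComplete (IsLocalRing.maximalIdeal O'') O'')
      (_ : Finite (IsLocalRing.ResidueField O''))
      (_ : CharZero O'') (_ : Algebra O' O'') (_ : Module.Finite O' O'')
      (_ : IsLocalHom (algebraMap O' O'')),
      Function.Injective (algebraMap O' O'') ∧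
      ∃ ρ : GaloisRepAdic O'',
        (∀ (ℓ : ℕ) (hℓ : ℓ.Prime) (hℓM : ¬ ℓ ∣ M) (hℓS : ℓ ∉ (↑S : Set ℕ)),
          ∀ A : ValuationSubring (AlgebraicClosure ℚ), A.LiesOverPrime ℓ →
            ∀ σ : AlgebraicClosure ℚ ≃ₐ[ℚ] AlgebraicClosure ℚ, A.IsFrobeniusAt σ ℓ →
              LinearMap.charpoly (ρ.ρ σ) =
                Polynomial.X ^ 2 - Polynomial.C (algebraMap O' O''
                  ((iota.comp chig.rangeRestrict) (CuspForm.heckeAlgebra.T hℓ hℓM hℓS))) *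
                    Polynomial.X
                  + Polynomial.C ((ℓ : O''))) ∧
        (∀ q : ℕ, q.Prime → q ≠ lam → M.factorization q = 2 → ¬ ρ.IsUnipotentOnInertiaAt q) := by
  have hlam : lam.Prime := Fact.out
  obtain ⟨O'', i1, i2, i3, i4, i5, i6, i7, i8, i9, hinj, ρ, hρ1, hρ2⟩ :=
    H25.s30_of_input lam M S hlamS hMS (heckeGaloisInput hlam (↑S : Set ℕ) hIn hES) O' hlamO'
      (iota.comp chig.rangeRestrict)
  refine ⟨O'', i1, i2, i3, i4, i5, i6, i7, i8, i9, hinj, ρ, hρ1, fun q hq hqlam hqM => ?_⟩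
  refine not_isUnipotent HR hg hlam hlamS hMS ?_ chig hchig
    ((algebraMap O' O'').comp (iota.comp chig.rangeRestrict)) ?_ ρ
    (fun ℓ hℓ hℓM hℓS A hA σ hσ => hρ1 ℓ hℓ hℓM hℓS A hA σ hσ) hES hq hqlam hqM
  · rw [IsLocalRing.mem_maximalIdeal, mem_nonunits_iff] at hlamO' ⊢
    intro h
    apply hlamO'
    have h1 : ((lam : ℕ) : O'') = algebraMap O' O'' (lam : O') := (map_natCast _ _).symm
    rw [h1] at h
    exact isUnit_of_map_unit (algebraMap O' O'') _ h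
  · intro x hx
    have h1 : chig.rangeRestrict x = 0 := Subtype.ext hx
    rw [RingHom.comp_apply, RingHom.comp_apply, h1, map_zero, map_zero]

end Fermat.Agent.RR
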