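import Mathlib
import Fermat.Agent.H05.Bounded
import Fermat.Agent.Descent.Input2
import Fermat.Agent.FF.L7
import Fermat.Agent.ES.Final
import Fermat.Agent.H14.Gamma0

/-!
# The genus of `X₀(N)` over `ℚ̄` is given by the genus formula
-/

set_option autoImplicit false
set_option linter.style.haveILetI false
set_option linter.unusedSectionVars false
set_option maxSynthPendingDepth 3

noncomputable section

namespace Fermat.Agent.RR

open AlgebraicCurve ModularCurve ModularCurve.Period CongruenceSubgroup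
open Fermat.Agent.H26 Fermat.Agent.H05
open scoped MatrixGroups DirectSum

/-- Homomorphisms out of a finitely generated abelian group `B` to groups without `e`-torsion are
determined freely by their values on finitely many elements. -/
theorem exists_hom_coords (B : Type*) [AddCommGroup B] [AddGroup.FG B] :
    ∃ (e n : ℕ) (c : Fin n → B), 0 < e ∧
      ∀ {A : Type} [AddCommGroup A] (_ : ∀ a : A, e • a = 0 → a = 0),
        Function.Bijective (fun (ψ : B →+ A) (i : Fin n) => ψ (c i)) := by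
  classical
  obtain ⟨n, ι, hι, p, hp, f, ⟨E⟩⟩ := AddCommGroup.equiv_free_prod_directSum_zmod B
  let e : ℕ := ∏ i, p i ^ f i
  have he : 0 < e := Finset.prod_pos fun i _ => pow_pos (hp i).pos _
  have hkill : ∀ y : ⨁ i, ZMod (p i ^ f i), e • y = 0 := by
    intro y
    refine DFinsupp.ext fun i => ?_
    have h1 : (e • y) i = e • y i := rfl
    rw [h1]
    obtain ⟨k, hk⟩ : p i ^ f i ∣ e := Finset.dvd_prod_of_mem _ (Finset.mem_univ i)
    rw [hk, nsmul_eq_mul, Nat.cast_mul, ZMod.natCast_self, zero_mul, zero_mul]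
    rfl
  refine ⟨e, n, fun i => E.symm (Finsupp.single i (1 : ℤ), 0), he, ?_⟩
  intro A _ hA
  constructor
  · intro ψ ψ' h
    have hfr : ∀ v : Fin n →₀ ℤ, ψ (E.symm (v, 0)) = ψ' (E.symm (v, 0)) := by
      intro v
      have h1 : (ψ.comp (E.symm : (Fin n →₀ ℤ) × (⨁ i, ZMod (p i ^ f i)) →+ B)).comp
          (AddMonoidHom.inl _ _) =
          (ψ'.comp (E.symm : (Fin n →₀ ℤ) × (⨁ i, ZMod (p i ^ f i)) →+ B)).comp
          (AddMonoidHom.inl _ _) := by
        refine Finsupp.addHom_ext fun i k => ?_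
        have h2 := congrFun h i
        have h3 : (Finsupp.single i k : Fin n →₀ ℤ) = k • Finsupp.single i (1 : ℤ) := by
          rw [Finsupp.smul_single, smul_eq_mul, mul_one]
        rw [h3, map_zsmul, map_zsmul]
        exact congrArg _ h2
      exact DFunLike.congr_fun h1 v
    have htor : ∀ (φ : B →+ A) (y : ⨁ i, ZMod (p i ^ f i)), φ (E.symm (0, y)) = 0 := by
      intro φ y
      apply hA
      have h4 : e • ((0, y) : (Fin n →₀ ℤ) × (⨁ i, ZMod (p i ^ f i))) = 0 := by
        rw [Prod.smul_mk, smul_zero, hkill]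
        rfl
      rw [← map_nsmul, ← map_nsmul, h4, map_zero, map_zero]
    refine AddMonoidHom.ext fun x => ?_
    obtain ⟨⟨v, y⟩, rfl⟩ := E.symm.surjective x
    have h5 : ((v, y) : (Fin n →₀ ℤ) × (⨁ i, ZMod (p i ^ f i))) = (v, 0) + (0, y) := by
      rw [Prod.mk_add_mk, add_zero, zero_add]
    rw [h5, map_add, map_add, map_add, hfr, htor, htor]
  · intro a
    refine ⟨((Finsupp.liftAddHom fun i => (smulAddHom ℤ A).flip (a i)).comp
      (AddMonoidHom.fst _ _)).comp
      (E : B →+ (Fin n →₀ ℤ) × ⨁ i, ZMod (p i ^ f i)), ?_⟩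
    funext i
    change (Finsupp.liftAddHom fun i => (smulAddHom ℤ A).flip (a i)) (E (E.symm _)).1 = a i
    rw [AddEquiv.apply_symm_apply, Finsupp.liftAddHom_apply_single]
    exact one_smul ℤ _

variable (N : ℕ) [NeZero N]

/-- the quotient of the abelianization of `Γ₀(N)` by parabolic and elliptic elements. -/
abbrev Bq : Type := Additive (Abelianization (Gamma0 N)) ⧸ parEllSub N

/-- parabolic homomorphisms to `ℂ` from the quotient. -/
def bqHomFun : (Bq N →+ ℂ) →ₗ[ℂ] parabolicHoms ℂ (Gamma0 N) ℂ where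
  toFun ψ := ⟨ψ.comp (parEllMk N), fun γ hγ => by
    change ψ (parEllMk N (Additive.ofMul γ)) = 0
    rw [parEllMk_eq_zero N (γ := γ) (by
      have : H22.tr2 (γ : SL(2, ℤ)) ^ 2 = 4 := hγ
      exact this.le), map_zero]⟩
  map_add' _ _ := rfl
  map_smul' _ _ := rfl

/-- parabolic homomorphisms to `ℂ`. -/
def bqHom : (Bq N →+ ℂ) ≃ₗ[ℂ] parabolicHoms ℂ (Gamma0 N) ℂ :=
  LinearEquiv.ofBijective (bqHomFun N) <| by
    constructor
    · intro ψ ψ' h
      have h1 : ψ.comp (parEllMk N) = ψ'.comp (parEllMk N) := congrArg Subtype.val h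
      refine AddMonoidHom.ext fun x => ?_
      obtain ⟨y, rfl⟩ := parEllMk_surjective N x
      exact DFunLike.congr_fun h1 y
    · rintro ⟨ψ, hψ⟩
      obtain ⟨ψ', h⟩ := exists_parEll_factor N ψ (fun γ hγ => H22.killsParEll_of_mem hψ γ hγ)
      exact ⟨ψ', Subtype.ext h.symm⟩

variable {N} in
/-- evaluation at finitely many elements. -/
def evalC {n : ℕ} (c : Fin n → Bq N) : (Bq N →+ ℂ) →ₗ[ℂ] (Fin n → ℂ) where
  toFun ψ i := ψ (c i)
  map_add' _ _ := rfl
  map_smul' _ _ := rfl

theorem finrank_parabolicHoms_eq {e n : ℕ} {c : Fin n → Bq N} (he : 0 < e)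
    (h : ∀ {A : Type} [AddCommGroup A] (_ : ∀ a : A, e • a = 0 → a = 0),
        Function.Bijective (fun (ψ : Bq N →+ A) (i : Fin n) => ψ (c i))) :
    Module.finrank ℂ (parabolicHoms ℂ (Gamma0 N) ℂ) = n := by
  have h1 : Function.Bijective (evalC c) := h (A := ℂ) (fun a ha => by
    rw [nsmul_eq_mul] at ha
    exact (mul_eq_zero.mp ha).resolve_left (by exact_mod_cast he.ne'))
  rw [← ((bqHom N).symm.trans (LinearEquiv.ofBijective (evalC c) h1)).finrank_eq.symm,
    Module.finrank_fin_fun]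

section Tor

variable [Algebra (AlgebraicClosure ℚ) ℂ]

variable {N} {m : ℕ} [hm : NeZero m]

/-- the character of a torsion point, with values in the roots of unity, on the quotient. -/
theorem exists_bq_char (x : Tor N m) : ∃ ψ : Bq N →+ Additive (rootsOfUnity m ℂ),
    ∀ γ : Gamma0 N, ((ψ (parEllMk N (Additive.ofMul γ))).toMul : ℂˣ) = kap x γ := by
  have hpow : ∀ γ, kap x γ ^ m = 1 := by
    obtain ⟨f, -, hf⟩ := kap_spec x
    exact hf.pow_eq_one hm.out
  let ψ₀ : Gamma0 N →* rootsOfUnity m ℂ := (kap x).codRestrict (rootsOfUnity m ℂ) fun γ => by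
    rw [mem_rootsOfUnity]
    exact hpow γ
  obtain ⟨ψ, hψ⟩ := exists_parEll_factor N (MonoidHom.toAdditive ψ₀) (fun γ hγ => by
    have h1 : ψ₀ γ = 1 := Subtype.ext (kap_parEll x γ hγ)
    change Additive.ofMul (ψ₀ γ) = 0
    rw [h1]
    rfl)
  refine ⟨ψ, fun γ => ?_⟩
  have h2 := DFunLike.congr_fun hψ (Additive.ofMul γ)
  rw [AddMonoidHom.comp_apply] at h2
  rw [← h2]
  rfl

/-- the character on the quotient. -/
def bqChar (x : Tor N m) : Bq N →+ Additive (rootsOfUnity m ℂ) := (exists_bq_char x).choose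

lemma bqChar_spec (x : Tor N m) (γ : Gamma0 N) :
    ((bqChar x (parEllMk N (Additive.ofMul γ))).toMul : ℂˣ) = kap x γ :=
  (exists_bq_char x).choose_spec γ

theorem bqChar_bijective : Function.Bijective (bqChar (N := N) (m := m)) := by
  constructor
  · intro x y h
    apply kappa_injective
    rw [kappa_apply, kappa_apply]
    refine congrArg _ (MonoidHom.ext fun γ => ?_)
    rw [← bqChar_spec, ← bqChar_spec, h]
  · intro ψ
    let χ : Gamma0 N →* ℂˣ := MonoidHom.comp (rootsOfUnity m ℂ).subtype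
      (MonoidHom.toAdditive.symm (ψ.comp (parEllMk N)))
    have hχ : ∀ γ, χ γ = ((ψ (parEllMk N (Additive.ofMul γ))).toMul : ℂˣ) := fun γ => rfl
    obtain ⟨x, hx, hxχ, hdvd⟩ := surjC N hm.out χ (fun γ => by
        rw [hχ]
        exact (mem_rootsOfUnity _ _).mp (ψ (parEllMk N (Additive.ofMul γ))).toMul.2)
      (fun γ hγ => by
        rw [hχ, parEllMk_eq_zero N hγ, map_zero]
        rfl)
    obtain ⟨P, hP⟩ := exists_kchar_of_complex hm.out hx hxχ hdvd
    have hPm : m • P = 0 := by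
      obtain ⟨f, hf, -⟩ := hP
      exact hf.nsmul_eq_zero
    refine ⟨⟨P, mem_tor.mpr hPm⟩, ?_⟩
    refine AddMonoidHom.ext fun z => ?_
    obtain ⟨γ, rfl⟩ := parEllMk_surjective N z
    have h1 := bqChar_spec (⟨P, mem_tor.mpr hPm⟩ : Tor N m) γ.toMul
    rw [kap_eq (ψ := χ) hP, hχ] at h1
    exact Subtype.ext h1

end Tor

/-- `2 dim S₂(Γ₀(N)) = dim` of the parabolic homomorphisms. -/
theorem finrank_parabolicHoms_two :
    Module.finrank ℂ (parabolicHoms ℂ (Gamma0 N) ℂ) =
      2 * Module.finrank ℂ (CuspForm (Gamma0 N) 2) := by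
  rw [← (ES.eichlerShimura N).2, ES.finrank_range]

/-- **The genus of `X₀(N)` over `ℚ̄` is the dimension of the space of cusp forms of weight two.** -/
theorem genusFF_bar_eq_finrank :
    genusFF (AlgebraicClosure ℚ) (modularFunctionFieldBar N) =
      Module.finrank ℂ (CuspForm (Gamma0 N) 2) := by
  letI : Algebra (AlgebraicClosure ℚ) ℂ :=
    (IsAlgClosed.lift (M := ℂ) (R := ℚ) (S := AlgebraicClosure ℚ)).toRingHom.toAlgebra
  obtain ⟨e, n, c, he, h⟩ := exists_hom_coords (Bq N)
  have h1 := finrank_parabolicHoms_eq N he h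
  obtain ⟨ℓ, hℓe, hℓ⟩ := Nat.exists_infinite_primes (e + 1)
  haveI : NeZero ℓ := ⟨hℓ.ne_zero⟩
  have hcop : Nat.Coprime e ℓ :=
    (hℓ.coprime_iff_not_dvd.mpr fun hd => absurd (Nat.le_of_dvd he hd) (by omega)).symm
  have hA : ∀ a : Additive (rootsOfUnity ℓ ℂ), e • a = 0 → a = 0 := by
    intro a ha
    have h2 : ℓ • a = 0 := by
      apply Additive.toMul.injective
      exact Subtype.ext ((mem_rootsOfUnity _ _).mp a.toMul.2)
    have h3 : addOrderOf a ∣ 1 := by
      rw [← hcop.gcd_eq_one]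
      exact Nat.dvd_gcd (addOrderOf_dvd_iff_nsmul_eq_zero.mpr ha)
        (addOrderOf_dvd_iff_nsmul_eq_zero.mpr h2)
    exact AddMonoid.addOrderOf_eq_one_iff.mp (Nat.dvd_one.mp h3)
  have h4 : Nat.card (Tor N ℓ) = ℓ ^ n := by
    rw [Nat.card_congr (Equiv.ofBijective _ (bqChar_bijective (N := N) (m := ℓ))),
      Nat.card_congr (Equiv.ofBijective _ (h hA)), Nat.card_fun, Nat.card_fin,
      Nat.card_congr (Additive.toMul (α := rootsOfUnity ℓ ℂ)), Complex.card_rootsOfUnity]
  have h5 := FF.card_torsion (AlgebraicClosure ℚ) (modularFunctionFieldBar N) ℓ hℓ.pos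
  have h6 : ℓ ^ (2 * genusFF (AlgebraicClosure ℚ) (modularFunctionFieldBar N)) = ℓ ^ n := by
    rw [← h5, ← h4]
  have h7 := Nat.pow_right_injective hℓ.two_le h6
  rw [finrank_parabolicHoms_two] at h1
  omega

/-- **The genus formula for the function field of `X₀(N)` over `ℚ̄`.** -/
theorem genusFF_bar :
    (genusFF (AlgebraicClosure ℚ) (modularFunctionFieldBar N) : ℚ) = genusFormula N := by
  rw [genusFF_bar_eq_finrank, H14.finrank_cuspForm_two]

end Fermat.Agent.RR
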