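import Fermat.Agent.RR.Stmt

/-!
# The Fricke involution and the degeneracy map `q ↦ q ^ d`
-/

set_option autoImplicit false
set_option linter.style.haveILetI false
set_option linter.unusedSectionVars false
set_option maxSynthPendingDepth 3

noncomputable section

open AlgebraicCurve ModularCurve

namespace Fermat.Agent.RR

open Fermat.Agent.H05 Fermat.Agent.Igusa

section Along

variable {K F F' : Type*} [Field K] [Field F] [Field F'] [Algebra K F] [Algebra K F']

theorem finrankAlong_conj (φ ψ : F →ₐ[K] F') (e : F ≃ₐ[K] F) (e' : F' ≃ₐ[K] F')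
    (h : ∀ x, e' (φ x) = ψ (e x)) : finrankAlong K φ = finrankAlong K ψ := by
  unfold finrankAlong
  letI a1 : Algebra F F' := algebraAlong φ
  have h1 : @Module.finrank F F' _ _ (algebraAlong φ).toModule =
      @Module.finrank F F' _ _ (algebraAlong ψ).toModule := by
    refine @Algebra.finrank_eq_of_equiv_equiv F F' _ _ (algebraAlong φ) F F' _ _ (algebraAlong ψ)
      e.toRingEquiv e'.toRingEquiv ?_
    exact RingHom.ext fun x => (h x).symm
  exact h1

end Along

section Ext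

variable {L : Type*} [Field L] [Algebra ℚ L]

theorem algHom_ext_jd {N : ℕ} {A : Type*} [Field A] [Algebra L A]
    {f g : laurentBaseChange L (modularFunctionFieldFull N) →ₐ[L] A}
    (h : ∀ (d : ℕ) [NeZero d], d ∣ N →
      ∀ hd : jd L d ∈ laurentBaseChange L (modularFunctionFieldFull N),
      f ⟨jd L d, hd⟩ = g ⟨jd L d, hd⟩) : f = g := by
  have key : ∀ (E : IntermediateField L (LaurentSeries L)), E = modularFunctionFieldFullC L N →
      ∀ f g : E →ₐ[L] A, (∀ (d : ℕ) [NeZero d], d ∣ N → ∀ hd : jd L d ∈ E,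
        f ⟨jd L d, hd⟩ = g ⟨jd L d, hd⟩) → f = g := by
    rintro _ rfl f g h
    apply IntermediateField.adjoin_algHom_ext
    rintro y ⟨d, hd, hdvd, rfl⟩
    exact h d hdvd _
  exact key _ (laurentBaseChange_full L N) f g h

theorem jd_mem_bc {N d : ℕ} [NeZero d] (h : d ∣ N) :
    jd L d ∈ laurentBaseChange L (modularFunctionFieldFull N) := by
  rw [laurentBaseChange_full]
  exact Igusa.jd_mem_full h

end Ext

section Fricke

variable (L : Type*) [Field L] [Algebra ℚ L] [Algebra.IsAlgebraic ℚ L]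

theorem exists_fricke_full (N : ℕ) [NeZero N] :
    ∃ w : modularFunctionFieldFullC L N ≃ₐ[L] modularFunctionFieldFullC L N,
      ∀ (d e : ℕ) [NeZero d] [NeZero e], d * e = N →
        ∀ h : jd L d ∈ modularFunctionFieldFullC L N,
        (w ⟨jd L d, h⟩ : LaurentSeries L) = jd L e := by
  have key : ∀ N' : ℕ, N' = 1 * N →
      ∃ w : modularFunctionFieldFullC L N' ≃ₐ[L] modularFunctionFieldFullC L N',
      ∀ (d e : ℕ) [NeZero d] [NeZero e], d * e = N →
        ∀ h : jd L d ∈ modularFunctionFieldFullC L N',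
        (w ⟨jd L d, h⟩ : LaurentSeries L) = jd L e := by
    rintro _ rfl
    refine ⟨Fermat.Agent.Q.wQ L (Nat.coprime_one_right N), fun d e _ _ hde h => ?_⟩
    refine Fermat.Agent.Q.coe_wQ_jd' L (Nat.coprime_one_right N) (d₁ := d) (d₂ := 1)
      (Dvd.intro e hde) (one_dvd _) (mul_one d) ?_ h
    rw [mul_one, ← hde, Nat.mul_div_cancel_left _ (Nat.pos_of_ne_zero (NeZero.ne d))]
  exact key N (one_mul N).symm

theorem exists_fricke (N : ℕ) [NeZero N] :
    ∃ w : laurentBaseChange L (modularFunctionFieldFull N) ≃ₐ[L]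
        laurentBaseChange L (modularFunctionFieldFull N),
      ∀ (d e : ℕ) [NeZero d] [NeZero e], d * e = N →
        ∀ h : jd L d ∈ laurentBaseChange L (modularFunctionFieldFull N),
        (w ⟨jd L d, h⟩ : LaurentSeries L) = jd L e := by
  have key : ∀ (E : IntermediateField L (LaurentSeries L)), E = modularFunctionFieldFullC L N →
      ∃ w : E ≃ₐ[L] E, ∀ (d e : ℕ) [NeZero d] [NeZero e], d * e = N →
        ∀ h : jd L d ∈ E, (w ⟨jd L d, h⟩ : LaurentSeries L) = jd L e := by
    rintro _ rfl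
    exact exists_fricke_full L N
  exact key _ (laurentBaseChange_full L N)

/-- **The Fricke involution** of the function field of `X₀(N)`. -/
def fr (N : ℕ) [NeZero N] : laurentBaseChange L (modularFunctionFieldFull N) ≃ₐ[L]
    laurentBaseChange L (modularFunctionFieldFull N) := (exists_fricke L N).choose

theorem coe_fr_jd (N : ℕ) [NeZero N] {d e : ℕ} [NeZero d] [NeZero e] (hde : d * e = N)
    (h : jd L d ∈ laurentBaseChange L (modularFunctionFieldFull N)) :
    (fr L N ⟨jd L d, h⟩ : LaurentSeries L) = jd L e :=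
  (exists_fricke L N).choose_spec d e hde h

theorem fr_jd (N : ℕ) [NeZero N] {d e : ℕ} [NeZero d] [NeZero e] (hde : d * e = N)
    (h : jd L d ∈ laurentBaseChange L (modularFunctionFieldFull N))
    (h' : jd L e ∈ laurentBaseChange L (modularFunctionFieldFull N)) :
    fr L N ⟨jd L d, h⟩ = ⟨jd L e, h'⟩ := Subtype.ext (coe_fr_jd L N hde h)

variable {M M' r : ℕ} [NeZero M] [NeZero M'] [NeZero r]

/-- `w ∘ (q ↦ q^r) = incl ∘ w` -/
theorem fr_qe (hM' : M' = M * r) (h : M * r ∣ M') (h' : M ∣ M')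
    (x : laurentBaseChange L (modularFunctionFieldFull M)) :
    fr L M' (qe L r h x) = inc L h' (fr L M x) := by
  have : ((fr L M').toAlgHom.comp (qe L r h)) = (inc L h').comp (fr L M).toAlgHom := by
    apply algHom_ext_jd
    intro d _ hd hmem
    obtain ⟨e, he⟩ := hd
    haveI : NeZero e := ⟨fun h0 => NeZero.ne M (by rw [he, h0, mul_zero])⟩
    haveI : NeZero (r * d) := ⟨mul_ne_zero (NeZero.ne r) (NeZero.ne d)⟩
    have h1 : jd L (r * d) ∈ laurentBaseChange L (modularFunctionFieldFull M') :=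
      jd_mem_bc (by rw [hM', he]; exact ⟨e, by ring⟩)
    have h2 : qe L r h ⟨jd L d, hmem⟩ = ⟨jd L (r * d), h1⟩ := Subtype.ext (by
      rw [coe_qe, qExpand_jd])
    change fr L M' (qe L r h ⟨jd L d, hmem⟩) = inc L h' (fr L M ⟨jd L d, hmem⟩)
    apply Subtype.ext
    rw [h2, coe_inc, coe_fr_jd L M he.symm hmem, coe_fr_jd L M' (e := e) (by rw [hM', he]; ring) h1]
  exact congrArg (fun f : laurentBaseChange L (modularFunctionFieldFull M) →ₐ[L]
    laurentBaseChange L (modularFunctionFieldFull M') => f x) this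

/-- `w ∘ incl = (q ↦ q^r) ∘ w` -/
theorem fr_inc (hM' : M' = M * r) (h : M * r ∣ M') (h' : M ∣ M')
    (x : laurentBaseChange L (modularFunctionFieldFull M)) :
    fr L M' (inc L h' x) = qe L r h (fr L M x) := by
  have : ((fr L M').toAlgHom.comp (inc L h')) = (qe L r h).comp (fr L M).toAlgHom := by
    apply algHom_ext_jd
    intro d _ hd hmem
    obtain ⟨e, he⟩ := hd
    haveI : NeZero e := ⟨fun h0 => NeZero.ne M (by rw [he, h0, mul_zero])⟩
    haveI : NeZero (r * e) := ⟨mul_ne_zero (NeZero.ne r) (NeZero.ne e)⟩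
    have h1 : jd L d ∈ laurentBaseChange L (modularFunctionFieldFull M') :=
      jd_mem_bc (by rw [hM', he]; exact ⟨e * r, by ring⟩)
    have h2 : inc L h' ⟨jd L d, hmem⟩ = ⟨jd L d, h1⟩ := Subtype.ext (by rw [coe_inc])
    change fr L M' (inc L h' ⟨jd L d, hmem⟩) = qe L r h (fr L M ⟨jd L d, hmem⟩)
    apply Subtype.ext
    rw [h2, coe_qe, coe_fr_jd L M he.symm hmem,
      coe_fr_jd L M' (e := r * e) (by rw [hM', he]; ring) h1, qExpand_jd]
  exact congrArg (fun f : laurentBaseChange L (modularFunctionFieldFull M) →ₐ[L]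
    laurentBaseChange L (modularFunctionFieldFull M') => f x) this

/-- the degree of the degeneracy map `q ↦ q ^ r`, `r` prime. -/
theorem finrankAlong_qe_prime (hr : r.Prime) (hM' : M' = M * r) (h : M * r ∣ M') :
    finrankAlong L (qe L r h) = if r ∣ M then r else r + 1 := by
  have h' : M ∣ M' := (dvd_mul_right M r).trans h
  rw [← finrankAlong_inc_prime L hr h' hM']
  exact finrankAlong_conj (qe L r h) (inc L h') (fr L M) (fr L M') (fr_qe L hM' h h')

/-- Generation by two inclusions. -/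
theorem gen_inc_inc {r ℓ : ℕ} [NeZero r] [NeZero ℓ] {M₁ M₂ : ℕ} [NeZero M₁] [NeZero M₂]
    (hr : r.Prime) (hℓ : ℓ.Prime) (hrℓ : r ≠ ℓ) (h₁ : M₁ = M * ℓ) (h₂ : M₂ = M * r)
    (hM' : M' = M * ℓ * r) (hu : M₁ ∣ M') (hv : M₂ ∣ M')
    (S : Subfield (laurentBaseChange L (modularFunctionFieldFull M')))
    (hS₁ : ∀ x, inc L hu x ∈ S) (hS₂ : ∀ y, inc L hv y ∈ S) : S = ⊤ := by
  haveI : CharZero L := charZero_of_injective_algebraMap (algebraMap ℚ L).injective
  haveI : Fact r.Prime := ⟨hr⟩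
  haveI : Fact ℓ.Prime := ⟨hℓ⟩
  subst h₁ h₂ hM'
  let A : IntermediateField L (LaurentSeries L) :=
    { S.map (laurentBaseChange L (modularFunctionFieldFull (M * ℓ * r))).val.toRingHom with
      algebraMap_mem' := fun a => ⟨algebraMap L _ a, by
        have := hS₁ (algebraMap L _ a)
        rwa [AlgHom.commutes] at this, rfl⟩ }
  have hAmem : ∀ z : laurentBaseChange L (modularFunctionFieldFull (M * ℓ * r)),
      (z : LaurentSeries L) ∈ A ↔ z ∈ S := by
    intro z
    constructor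
    · rintro ⟨z', hz', he⟩
      have : z' = z := Subtype.ext he
      rwa [← this]
    · intro hz
      exact ⟨z, hz, rfl⟩
  have hA₁ : modularFunctionFieldFullC L (M * ℓ) ≤ A := by
    intro x hx
    rw [← laurentBaseChange_full] at hx
    have h1 := (hAmem _).mpr (hS₁ ⟨x, hx⟩)
    rwa [coe_inc] at h1
  have hA₂ : modularFunctionFieldFullC L (M * r) ≤ A := by
    intro x hx
    rw [← laurentBaseChange_full] at hx
    have h1 := (hAmem _).mpr (hS₂ ⟨x, hx⟩)
    rwa [coe_inc] at h1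
  obtain ⟨a, M₀, hM₀, hM⟩ := Nat.exists_eq_pow_mul_and_not_dvd (NeZero.ne M) r hr.ne_one
  haveI : NeZero M₀ := ⟨fun h => NeZero.ne M (by rw [hM, h, mul_zero])⟩
  have hrL : (r : L) ≠ 0 := by exact_mod_cast hr.ne_zero
  have hcop : ¬ r ∣ M₀ * ℓ := by
    intro h
    rcases (Nat.Prime.dvd_mul hr).mp h with h | h
    · exact hM₀ h
    · exact hrℓ ((Nat.prime_dvd_prime_iff_eq hr hℓ).mp h)
  have hj3 : Igusa.jd L (r ^ (a + 1)) ∈ A :=
    hA₂ (Igusa.jd_mem_full (by rw [hM, pow_succ]; exact ⟨M₀, by ring⟩))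
  have hfull : modularFunctionFieldFullC L (M * ℓ * r) ≤ A := by
    have h1 := Igusa.full_le_adj (k := L) r a (M₀ * ℓ) hcop hrL
      (by exact_mod_cast NeZero.ne (M₀ * ℓ))
    have h2 : M * ℓ * r = r ^ a * (M₀ * ℓ) * r := by rw [hM]; ring
    have h3 : M * ℓ = r ^ a * (M₀ * ℓ) := by rw [hM]; ring
    have h4 : modularFunctionFieldFullC L (M * ℓ * r) =
        modularFunctionFieldFullC L (r ^ a * (M₀ * ℓ) * r) := by rw [h2]
    have h5 : modularFunctionFieldFullC L (M * ℓ) =
        modularFunctionFieldFullC L (r ^ a * (M₀ * ℓ)) := by rw [h3]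
    rw [h4]
    exact h1.trans (Igusa.adj_le (by rw [← h5]; exact hA₁) hj3)
  rw [eq_top_iff]
  intro z _
  rw [← hAmem]
  apply hfull
  rw [← laurentBaseChange_full]
  exact z.2

/-- Generation by two maps `q ↦ q ^ r`, `q ↦ q ^ ℓ`. -/
theorem gen_qe_qe {r ℓ : ℕ} [NeZero r] [NeZero ℓ] {M₁ M₂ : ℕ} [NeZero M₁] [NeZero M₂]
    (hr : r.Prime) (hℓ : ℓ.Prime) (hrℓ : r ≠ ℓ) (h₁ : M₁ = M * ℓ) (h₂ : M₂ = M * r)
    (hM' : M' = M * ℓ * r) (hu : M₁ * r ∣ M') (hv : M₂ * ℓ ∣ M')
    (S : Subfield (laurentBaseChange L (modularFunctionFieldFull M')))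
    (hS₁ : ∀ x, qe L r hu x ∈ S) (hS₂ : ∀ y, qe L ℓ hv y ∈ S) : S = ⊤ := by
  have hu' : M₁ ∣ M' := (dvd_mul_right _ _).trans hu
  have hv' : M₂ ∣ M' := (dvd_mul_right _ _).trans hv
  let w : laurentBaseChange L (modularFunctionFieldFull M') →+*
      laurentBaseChange L (modularFunctionFieldFull M') := (fr L M').toAlgHom.toRingHom
  have h1 : S.map w = ⊤ := by
    refine gen_inc_inc L hr hℓ hrℓ h₁ h₂ hM' hu' hv' _ (fun x => ?_) (fun y => ?_)
    · refine ⟨_, hS₁ ((fr L M₁).symm x), ?_⟩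
      change fr L M' (qe L r hu ((fr L M₁).symm x)) = _
      rw [fr_qe L (by rw [hM', h₁]) hu hu', AlgEquiv.apply_symm_apply]
    · refine ⟨_, hS₂ ((fr L M₂).symm y), ?_⟩
      change fr L M' (qe L ℓ hv ((fr L M₂).symm y)) = _
      rw [fr_qe L (by rw [hM', h₂]; ring) hv hv', AlgEquiv.apply_symm_apply]
  rw [eq_top_iff]
  intro z _
  have h2 : w z ∈ S.map w := by rw [h1]; trivial
  obtain ⟨z', hz', he⟩ := h2
  have : z' = z := w.injective he
  rwa [← this]

end Fricke

end Fermat.Agent.RR
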