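import Fermat.Agent.RR.Fricke

/-!
# Galois and Hecke equivariance of the two push-forward maps
-/

set_option autoImplicit false
set_option linter.style.haveILetI false
set_option linter.unusedSectionVars false
set_option maxSynthPendingDepth 3

noncomputable section

open AlgebraicCurve ModularCurve

namespace Fermat.Agent.RR

open Fermat.Agent.H05 Fermat.Agent.Igusa

section Along

variable {K F F₁ F' : Type*} [Field K] [Field F] [Field F₁] [Field F'] [Algebra K F]
  [Algebra K F₁] [Algebra K F']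

/-- Transitivity of norms. -/
theorem normAlong_normAlong (φ : F →ₐ[K] F₁) (u : F₁ →ₐ[K] F') (z : F') :
    normAlong φ (normAlong u z) = normAlong (u.comp φ) z := by
  letI a1 : Algebra F F₁ := algebraAlong φ
  letI a2 : Algebra F₁ F' := algebraAlong u
  letI a3 : Algebra F F' := algebraAlong (u.comp φ)
  haveI : IsScalarTower F F₁ F' := IsScalarTower.of_algebraMap_eq fun x => rfl
  exact Algebra.norm_norm (R := F) (S := F₁) (A := F')

theorem normAlong_congr {φ ψ : F →ₐ[K] F'} (h : φ = ψ) (z : F') :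
    normAlong φ z = normAlong ψ z := by rw [h]

end Along

variable (L : Type*) [Field L] [Algebra ℚ L] [IsAlgClosed L]

theorem degPushB_galois (M r : ℕ) [NeZero M] [NeZero r] (σ : L ≃ₐ[ℚ] L)
    (x : Pic0 L (laurentBaseChange L (modularFunctionFieldFull (M * r)))) :
    degPushB L M r (σ • x) = σ • degPushB L M r x := by
  haveI : CharZero L := charZero_of_injective_algebraMap (algebraMap ℚ L).injective
  rw [galois_smul_pic0_def, galois_smul_pic0_def]
  exact pushPic_smul _ _ _ _ (intertwines_beta L M r σ)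
    (fun w => by rw [deg_eq_one_bc]; exact one_ne_zero) x

variable [Algebra.IsAlgebraic ℚ L]

/-- The function-level Hecke equivariance of `b_*`. -/
theorem norm_beta_hecke {M r ℓ : ℕ} [NeZero M] [NeZero r] [NeZero ℓ] (hℓ : ℓ.Prime) (hr : r.Prime)
    (hrℓ : r ≠ ℓ) (f : laurentBaseChange L (modularFunctionFieldFull (M * r))) :
    normAlong (heckeBetaBar L M r) (normAlong (heckeAlphaBar L (M * r) ℓ)
      (heckeBetaBar L (M * r) ℓ f)) =
    normAlong (heckeAlphaBar L M ℓ) (heckeBetaBar L M ℓ (normAlong (heckeBetaBar L M r) f)) := by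
  haveI : CharZero L := charZero_of_injective_algebraMap (algebraMap ℚ L).injective
  have hM' : M * r * ℓ = M * ℓ * r := by ring
  have hu : M * ℓ * r ∣ M * r * ℓ := ⟨1, by ring⟩
  have hinc : M * ℓ ∣ M * r * ℓ := ⟨r, by ring⟩
  -- base change
  have hbc := normAlong_baseChange (heckeBetaBar L M ℓ) (heckeBetaBar L M r) (qe L r hu)
    (heckeBetaBar L (M * r) ℓ)
    (by
      refine AlgHom.ext fun x => Subtype.ext ?_
      rw [heckeBetaBar_eq, heckeBetaBar_eq, heckeBetaBar_eq, AlgHom.comp_apply, AlgHom.comp_apply,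
        coe_qe, coe_qe, coe_qe, coe_qe, qExpand_qExpand, qExpand_qExpand]
      exact qExpand_congr (mul_comm r ℓ) _)
    (finiteAlong_beta L M r) (finiteAlong_qe L r hu)
    (gen_qe_qe L hr hℓ hrℓ rfl rfl hM' hu dvd_rfl)
    (by
      rw [finrankAlong_qe_prime L hr hM' hu, heckeBetaBar_eq,
        finrankAlong_qe_prime L hr rfl (dvd_refl (M * r))]
      have h3 : r ∣ M * ℓ ↔ r ∣ M := by
        constructor
        · intro h
          rcases (Nat.Prime.dvd_mul hr).mp h with h | h
          · exact h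
          · exact absurd ((Nat.prime_dvd_prime_iff_eq hr hℓ).mp h) hrℓ
        · exact fun h => h.mul_right ℓ
      simp only [h3])
    f
  rw [← hbc, normAlong_normAlong, normAlong_normAlong]
  refine normAlong_congr (AlgHom.ext fun x => Subtype.ext ?_) _
  rw [heckeBetaBar_eq, heckeAlphaBar_eq, heckeAlphaBar_eq, AlgHom.comp_apply, AlgHom.comp_apply,
    coe_inc, coe_qe, coe_qe, coe_inc]

/-- `b_*` commutes with `T_ℓ`, `ℓ ≠ r`, on torsion points. -/
theorem degPushB_hecke {M r ℓ : ℕ} [NeZero M] [NeZero r] [NeZero ℓ] (hℓ : ℓ.Prime) (hr : r.Prime)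
    (hrℓ : r ≠ ℓ) {m : ℕ} (hm : m ≠ 0)
    {x : Pic0 L (laurentBaseChange L (modularFunctionFieldFull (M * r)))} (hx : m • x = 0) :
    degPushB L M r (heckeOperatorAlong L (M * r) ℓ x) =
      heckeOperatorAlong L M ℓ (degPushB L M r x) := by
  obtain ⟨f, hf⟩ := exists_kum hx
  have h1 := (hf.heckeOperatorAlong (L := L) (ℓ := ℓ)).degPushB L
  have h2 := (hf.degPushB L).heckeOperatorAlong (L := L) (ℓ := ℓ)
  rw [norm_beta_hecke L hℓ hr hrℓ] at h1
  exact h1.unique_left hm h2

end Fermat.Agent.RR
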