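import Fermat.Agent.H05.ALJac

/-!
# The statement of the theorem on the fixed points of inertia on the `q`-new part of `J₀(q² M')`

(`THEOREM R`.)
-/

set_option autoImplicit false
set_option linter.style.haveILetI false
set_option maxSynthPendingDepth 3

noncomputable section

open AlgebraicCurve ModularCurve

namespace Fermat.Agent.RR

open Fermat.Agent.H05

local notation "Qb" => AlgebraicClosure ℚ

section Deg

variable (L : Type*) [Field L] [Algebra ℚ L]

/-- The push-forward `J₀(M r) → J₀(M)` along `q ↦ q ^ r`. -/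
def degPushB (M r : ℕ) [NeZero M] [NeZero r] :
    Pic0 L (laurentBaseChange L (modularFunctionFieldFull (M * r))) →+
      Pic0 L (laurentBaseChange L (modularFunctionFieldFull M)) :=
  haveI : CharZero L := charZero_of_injective_algebraMap (algebraMap ℚ L).injective
  pushPic (heckeBetaBar L M r) (heckeBetaBarIntegral L M r) (finiteAlong_beta L M r)
    (normFormulaAlong_of _ _)

theorem _root_.Fermat.Agent.H05.Kum.degPushB {M r : ℕ} [NeZero M] [NeZero r] {m : ℕ}
    {y : Pic0 L (laurentBaseChange L (modularFunctionFieldFull (M * r)))}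
    {g : laurentBaseChange L (modularFunctionFieldFull (M * r))} (h : Kum m y g) :
    Kum m (degPushB L M r y) (normAlong (heckeBetaBar L M r) g) :=
  haveI : CharZero L := charZero_of_injective_algebraMap (algebraMap ℚ L).injective
  h.pushPic (heckeBetaBar L M r) _ _ _

end Deg

/-- `a_* : J₀(M q) → J₀(M)` -/
abbrev aPush (M q : ℕ) [NeZero M] [NeZero q] : JZero (M * q) →+ JZero M := degPush Qb M q

/-- `b_* : J₀(M q) → J₀(M)` -/
abbrev bPush (M q : ℕ) [NeZero M] [NeZero q] : JZero (M * q) →+ JZero M := degPushB Qb M q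

/-- The conclusion of `THEOREM R` at level `M' q²`: the points of `p`-power order of the `q`-new
part of `J₀(M' q²)` fixed by the inertia group of a place over `q` are killed by a constant. -/
def TheoremR (M' q p : ℕ) [NeZero M'] [NeZero q] (A : ValuationSubring Qb) : Prop :=
  ∃ C : ℕ, 0 < C ∧ ∀ (n : ℕ) (x : JZero (M' * q * q)), p ^ n • x = 0 →
    (∀ σ ∈ A.inertiaSubgroupIn ℚ, σ • x = x) →
    aPush (M' * q) q x = 0 → bPush (M' * q) q x = 0 → C • x = 0

/-- `THEOREM R`, with the auxiliary level structure. -/
def TheoremRAux : Prop :=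
  ∀ (M' q p : ℕ) [NeZero M'] [NeZero q] (A : ValuationSubring Qb), q.Prime → p.Prime → p ≠ q →
    ¬ q ∣ M' → (q ≠ 2 → 4 ∣ M') → (q = 2 → 9 ∣ M') → A.LiesOverPrime q → TheoremR M' q p A

end Fermat.Agent.RR
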